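import Fermat.Agent.EveryDeRham.Average
import Fermat.Agent.CurveDeRham.Basis

/-!
# A criterion for the vanishing of the period of an extension

For a de Rham representation of dimension two, weights `1`, `0` and determinant `χ` a class has
period zero as soon as, over some open subgroup, some vector of the dual of the extension with
values in `ℂ_p` is fixed and does not vanish on the representation.
-/

set_option autoImplicit false
set_option linter.unusedSectionVars false
set_option linter.style.haveILetI false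

noncomputable section

open Finset Matrix FA.TateSen FA.BDR FA.Sen FA.PadicHodge FA.BDRCoh FA.DRCoh FA.CurveDR

namespace FA.KDR

variable {p : ℕ} [hp : Fact p.Prime]

local notation "Cp" => ℂ_[p]
local notation "Ω" => PadicAlgCl p
local notation "G" => PadicAlgCl p ≃ₐ[ℚ_[p]] PadicAlgCl p
local notation "ι" => algebraMap (BPlus p) (BField p)

variable (p) in
/-- A row of elements of `ℂ_p` fixed by a representation on a set of automorphisms. -/
def IsFixedRow {d : Type} [Fintype d]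
    (ρ : (PadicAlgCl p ≃ₐ[ℚ_[p]] PadicAlgCl p) → Matrix d d ℚ_[p]) (e : d → ℂ_[p])
    (σ : PadicAlgCl p ≃ₐ[ℚ_[p]] PadicAlgCl p) : Prop :=
  (fun j => gal σ (e j)) = e ᵥ* (ρ σ).map (algebraMap ℚ_[p] ℂ_[p])

/-- **Averaging of rows.** -/
theorem exists_fixed_row {d : Type} [Fintype d] [DecidableEq d] {ρ : G → Matrix d d ℚ_[p]}
    (hρ : IsQpRep p d ρ) {U : Subgroup G} (hU : IsOpen (U : Set G)) {e : d → Cp}
    (he : ∀ u ∈ U, IsFixedRow p ρ e u) {j₀ : d} (hj : e j₀ ≠ 0) :
    ∃ e' : d → Cp, (∀ σ, IsFixedRow p ρ e' σ) ∧ e' j₀ ≠ 0 := by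
  classical
  set L := IntermediateField.fixedField U
  have hLU : L.fixingSubgroup = U := InfiniteGalois.fixingSubgroup_fixedField
    ⟨U, Subgroup.isClosed_of_isOpen U hU⟩
  have : Finite (G ⧸ U) := U.quotient_finite_of_isOpen hU
  have : Fintype (G ⧸ U) := Fintype.ofFinite _
  let g : G ⧸ U → G := Quotient.out
  have hg : ∀ q, (g q : G ⧸ U) = q := Quotient.out_eq
  set f : ℚ_[p] →+* Cp := algebraMap ℚ_[p] Cp
  have hgal : ∀ (σ : G) (x : d → Cp) (M : Matrix d d ℚ_[p]),
      (fun j => gal σ ((x ᵥ* M.map f) j)) = (fun j => gal σ (x j)) ᵥ* M.map f := fun σ x M =>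
    funext fun j => by
      simp only [Matrix.vecMul, dotProduct, Matrix.map_apply, map_sum, map_mul, f, gal_scalar]
  let T : Ω → G → d → Cp := fun a σ =>
    (fun j => gal σ (algebraMap Ω Cp a * e j)) ᵥ* (ρ σ⁻¹).map f
  have hTu : ∀ a ∈ L, ∀ σ, ∀ u ∈ U, T a (σ * u) = T a σ := fun a ha σ u hu => by
    have hua : u a = a := (IntermediateField.mem_fixingSubgroup_iff L u).1 (hLU.symm ▸ hu) a ha
    have e1 : (fun j => gal (σ * u) (algebraMap Ω Cp a * e j)) =
        (fun j => gal σ (algebraMap Ω Cp a * e j)) ᵥ* (ρ u).map f := by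
      have e2 : ∀ j, gal (σ * u) (algebraMap Ω Cp a * e j) =
          gal σ ((((algebraMap Ω Cp a) • e) ᵥ* (ρ u).map f) j) := fun j => by
        rw [gal_mul, map_mul (gal u), ← PadicComplex.coe_eq, gal_coe, hua, congrFun (he u hu) j,
          PadicComplex.coe_eq, Matrix.smul_vecMul, Pi.smul_apply, smul_eq_mul]
      rw [funext e2, hgal]
      rfl
    show _ ᵥ* _ = _
    rw [e1, Matrix.vecMul_vecMul, ← Matrix.map_mul, ← hρ.map_mul, _root_.mul_inv_rev,
      mul_inv_cancel_left]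
  have hTq : ∀ a ∈ L, ∀ σ : G, T a (g (σ : G ⧸ U)) = T a σ := fun a ha σ => by
    have h := hTu a ha σ (σ⁻¹ * g (σ : G ⧸ U)) (QuotientGroup.eq.1 (hg _).symm)
    rwa [mul_inv_cancel_left] at h
  have hT : ∀ a (σ τ : G), (fun j => gal σ (T a τ j)) = T a (σ * τ) ᵥ* (ρ σ).map f :=
      fun a σ τ => by
    simp only [T]
    rw [hgal, Matrix.vecMul_vecMul, ← Matrix.map_mul, ← hρ.map_mul,
      _root_.mul_inv_rev, inv_mul_cancel_right]
    simp only [← gal_mul]
  have hfix : ∀ a ∈ L, ∀ σ : G, IsFixedRow p ρ (∑ q, T a (g q)) σ := fun a ha σ => by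
    have h1 : (fun j => gal σ ((∑ q, T a (g q)) j)) = ∑ q, fun j => gal σ (T a (g q) j) :=
      funext fun j => by simp only [Finset.sum_apply, map_sum]
    rw [IsFixedRow, h1, Matrix.sum_vecMul]
    refine Fintype.sum_equiv (MulAction.toPerm σ) _ _ fun q => ?_
    have e2 : MulAction.toPerm σ q = ((σ * g q : G) : G ⧸ U) := by
      conv_lhs => rw [← hg q]
      rfl
    rw [hT, e2, hTq a ha]
  by_contra hne
  push Not at hne
  let φ : G ⧸ U → (L →* Cp) := fun q =>
    (((algebraMap Ω Cp).comp (g q : Ω →+* Ω)).comp (algebraMap L Ω)).toMonoidHom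
  have hφ : Function.Injective φ := fun q q' h => by
    rw [← hg q, ← hg q', QuotientGroup.eq]
    refine hLU.le ((IntermediateField.mem_fixingSubgroup_iff L _).2 fun a ha => ?_)
    have h1 : g q a = g q' a :=
      (algebraMap Ω Cp).injective (DFunLike.congr_fun h ⟨a, ha⟩)
    rw [AlgEquiv.mul_apply, ← h1]
    exact (g q).symm_apply_apply a
  have hli := (linearIndependent_monoidHom L Cp).comp φ hφ
  let w : G ⧸ U → Cp := fun q => ((fun j => gal (g q) (e j)) ᵥ* (ρ (g q)⁻¹).map f) j₀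
  have hw : ∀ q, w q = 0 := by
    refine Fintype.linearIndependent_iff.1 hli w ?_
    funext a
    have h := hne _ (hfix a a.2)
    rw [Finset.sum_apply] at h
    rw [Finset.sum_apply, Pi.zero_apply, ← h]
    refine Finset.sum_congr rfl fun q _ => ?_
    simp only [T, w, Pi.smul_apply, smul_eq_mul, Function.comp_apply, Matrix.vecMul, dotProduct,
      map_mul, Finset.sum_mul]
    refine Finset.sum_congr rfl fun j _ => ?_
    rw [← PadicComplex.coe_eq, gal_coe]
    show _ * ((g q a : Ω) : Cp) = _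
    ring
  refine hj ?_
  have h1 := hw ((1 : G) : G ⧸ U)
  have hu : g ((1 : G) : G ⧸ U) ∈ U := by
    have h2 := QuotientGroup.eq.1 (hg ((1 : G) : G ⧸ U)).symm
    rwa [inv_one, one_mul] at h2
  simp only [w] at h1
  rw [show (fun j => gal (g ((1 : G) : G ⧸ U)) (e j)) = _ from he _ hu] at h1
  rwa [Matrix.vecMul_vecMul, ← Matrix.map_mul, ← hρ.map_mul, mul_inv_cancel, hρ.map_one,
    Matrix.map_one _ (map_zero f) (map_one f), Matrix.vecMul_one] at h1

variable {ρ : (PadicAlgCl p ≃ₐ[ℚ_[p]] PadicAlgCl p) → Matrix (Fin 2) (Fin 2) ℚ_[p]}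

theorem isFixedRow_ext {c : G → Fin 2 → ℚ_[p]} {e : Fin 2 ⊕ Unit → Cp} {σ : G} :
    IsFixedRow p (extRep ρ c) e σ ↔
      IsFixedRow p ρ (fun k => e (Sum.inl k)) σ ∧
        gal σ (e (Sum.inr ())) =
          ∑ k, e (Sum.inl k) * algebraMap ℚ_[p] Cp (c σ k) + e (Sum.inr ()) := by
  refine ⟨fun h => ⟨funext fun j => ?_, ?_⟩, fun h => funext fun j => ?_⟩
  · have h1 := congrFun h (Sum.inl j)
    simpa [Matrix.vecMul, dotProduct, Fintype.sum_sum_type, extRep] using h1
  · have h1 := congrFun h (Sum.inr ())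
    simpa [Matrix.vecMul, dotProduct, Fintype.sum_sum_type, extRep] using h1
  · rcases j with j | ⟨⟩
    · have h1 := congrFun h.1 j
      simpa [Matrix.vecMul, dotProduct, Fintype.sum_sum_type, extRep] using h1
    · simpa [Matrix.vecMul, dotProduct, Fintype.sum_sum_type, extRep] using h.2

/-- **The criterion.** -/
theorem periodMap_eq_zero_of_row (hqp : IsQpRep p (Fin 2) ρ) (hρ : IsDeRham ρ)
    {P : (Matrix (Fin 2) (Fin 2) Cp)ˣ}
    (hP : ∀ τ, FA.Sen.conj (cpRep ρ) P τ = Matrix.diagonal fun i => twist p (![1, 0] i) τ)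
    (hdet : ∀ τ, (ρ τ).det = ((chi p τ : ℤ_[p]) : ℚ_[p])) (c : cocyclesOne ρ)
    {U : Subgroup G} (hU : IsOpen (U : Set G)) {e : Fin 2 ⊕ Unit → Cp}
    (he : ∀ u ∈ U, IsFixedRow p (extRep ρ c) e u) {j : Fin 2} (hj : e (Sum.inl j) ≠ 0) :
    periodMap hρ c = 0 := by
  obtain ⟨e', he', hj'⟩ := exists_fixed_row (isQpRep_extRep hqp c) hU he hj
  set f : ℚ_[p] →+* Cp := algebraMap ℚ_[p] Cp
  set l : Fin 2 → Cp := fun k => e' (Sum.inl k) with hl
  set b := e' (Sum.inr ())
  have hrow : ∀ σ k, gal σ (l k) = l 0 * f (ρ σ 0 k) + l 1 * f (ρ σ 1 k) := fun σ k => by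
    rw [congrFun (isFixedRow_ext.1 (he' σ)).1 k]
    simp [Matrix.vecMul, dotProduct, Fin.sum_univ_two, f, hl]
  have hb : ∀ σ, gal σ b =
      l 0 * f ((c : G → Fin 2 → ℚ_[p]) σ 0) + l 1 * f ((c : G → Fin 2 → ℚ_[p]) σ 1) + b :=
    fun σ => by
      rw [(isFixedRow_ext.1 (he' σ)).2, Fin.sum_univ_two]
  -- the period
  obtain ⟨U', i', hU'⟩ := exists_lattice hρ
  obtain ⟨x, y, hx, hy⟩ := hU'.exists_log_add
    (f := fun σ i => qpHom p ((c : G → Fin 2 → ℚ_[p]) σ i))
    ⟨fun i => contBPlus_qpHom ((continuous_apply i).comp c.2.1), fun σ τ => by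
      funext i
      rw [Pi.add_apply, c.2.2 σ τ, Pi.add_apply, map_add, DRCoh.actP, plusRep]
      congr 1
      simp only [Matrix.mulVec, dotProduct, map_sum, map_mul, Matrix.map_apply, smul_qpHom]⟩
  have hact : ∀ σ (z : Fin 2 → BPlus p), actB ρ σ (fun i => ι (z i)) =
      fun i => ι (DRCoh.actP (plusRep ρ) σ z i) := fun σ z => by
    funext i
    simp only [actB, DRCoh.actP, Matrix.mulVec, dotProduct, Matrix.map_apply, plusRep, map_sum,
      map_mul, smul_algebraMap_bfield, qpB, RingHom.comp_apply]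
  have hxd : (fun i => ι (x i)) ∈ dR ρ := fun σ => by rw [hact, hx σ]
  have hper : (periodMap hρ c : Fin 2 → BField p) = fun i => ι (x i) := by
    refine periodClass_eq hρ c hxd (y := fun i => ι (y i)) fun σ => funext fun i => ?_
    have h1 := congrArg ι (congrFun (hy σ) i)
    simp only [Pi.add_apply, Pi.sub_apply, Pi.smul_apply, smul_eq_mul, map_add, map_sub,
      map_mul] at h1
    simp only [Pi.add_apply, Pi.sub_apply, Pi.smul_apply, smul_eq_mul, hact, qpB,
      RingHom.comp_apply]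
    exact h1
  set X : Fin 2 → Cp := fun i => thetaPlus p (x i)
  set Y : Fin 2 → Cp := fun i => thetaPlus p (y i)
  have hact' : ∀ σ (z : Fin 2 → BPlus p) i, thetaPlus p (DRCoh.actP (plusRep ρ) σ z i) =
      f (ρ σ i 0) * gal σ (thetaPlus p (z 0)) + f (ρ σ i 1) * gal σ (thetaPlus p (z 1)) :=
    fun σ z i => by
      simp [DRCoh.actP, plusRep, Matrix.mulVec, dotProduct, Fin.sum_univ_two, thetaPlus_qpHom,
        smul_bplus_def, thetaPlus_bplusGal, f]
  have hX : ∀ σ i, X i = f (ρ σ i 0) * gal σ (X 0) + f (ρ σ i 1) * gal σ (X 1) := fun σ i => by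
    rw [← hact' σ x i, hx σ]
  have hY : ∀ σ i, f ((c : G → Fin 2 → ℚ_[p]) σ i) = f (logChi p σ) * X i +
      (f (ρ σ i 0) * gal σ (Y 0) + f (ρ σ i 1) * gal σ (Y 1) - Y i) := fun σ i => by
    have h1 := congrArg (thetaPlus p) (congrFun (hy σ) i)
    simp only [Pi.add_apply, Pi.sub_apply, Pi.smul_apply, smul_eq_mul, map_add, map_sub, map_mul,
      thetaPlus_qpHom, hact'] at h1
    exact h1
  -- the pairing with the row vanishes
  set κ := l 0 * X 0 + l 1 * X 1
  obtain ⟨k, hk⟩ := (Fermat.Agent.AxSenTate.fixed_padicComplex_iff p κ).1 fun σ => by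
    rw [← gal_apply]
    simp only [κ, map_add, map_mul, hrow]
    linear_combination -(l 0) * hX σ 0 - l 1 * hX σ 1
  have hk0 : k = 0 := logChi_not_coboundary (y := b - (l 0 * Y 0 + l 1 * Y 1)) fun σ => by
    rw [coboundary_zero, map_mul, hk, map_sub, map_add, map_mul, map_mul, hrow, hrow, hb]
    simp only [κ]
    linear_combination -(l 0) * hY σ 0 - l 1 * hY σ 1
  have hκ : l 0 * X 0 + l 1 * X 1 = 0 := by
    show κ = 0
    rw [← hk, hk0, map_zero]
  have hl01 : l 0 ≠ 0 ∨ l 1 ≠ 0 := by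
    fin_cases j
    · exact Or.inl hj'
    · exact Or.inr hj'
  obtain ⟨a, ha1, ha0⟩ : ∃ a, X 1 = a * l 0 ∧ X 0 = -(a * l 1) := by
    rcases hl01 with h | h
    · refine ⟨X 1 / l 0, (div_mul_cancel₀ _ h).symm, mul_left_cancel₀ h ?_⟩
      rw [mul_neg, ← mul_assoc, mul_div_cancel₀ _ h]
      linear_combination hκ
    · refine ⟨-X 0 / l 1, mul_left_cancel₀ h ?_, by rw [div_mul_cancel₀ _ h, neg_neg]⟩
      rw [← mul_assoc, mul_div_cancel₀ _ h]
      linear_combination hκ
  have ha : a = 0 := eq_zero_of_invariant (p := p) one_ne_zero fun σ => by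
    have hd : twist p 1 σ = f (ρ σ 0 0) * f (ρ σ 1 1) - f (ρ σ 0 1) * f (ρ σ 1 0) := by
      rw [twist, zpow_one, ← hdet, Matrix.det_fin_two, map_sub, map_mul, map_mul]
    have e1 := hX σ 1
    have e0 := hX σ 0
    rw [ha1, ha0, map_neg, map_mul, map_mul, hrow, hrow] at e1 e0
    have h0 : (twist p 1 σ * gal σ a - a) * l 0 = 0 := by
      rw [hd]
      linear_combination -e1
    have h1 : (twist p 1 σ * gal σ a - a) * l 1 = 0 := by
      rw [hd]
      linear_combination e0
    rcases hl01 with h | h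
    · exact sub_eq_zero.1 ((mul_eq_zero.1 h0).resolve_right h)
    · exact sub_eq_zero.1 ((mul_eq_zero.1 h1).resolve_right h)
  have hX0 : ∀ i, X i = 0 := Fin.forall_fin_two.2
    ⟨by rw [ha0, ha, zero_mul, neg_zero], by rw [ha1, ha, zero_mul]⟩
  -- so the period lies in the first step, which is zero
  obtain ⟨u, hu, -⟩ := exists_tPeriod_eq (p := p)
  have hmem : (fun i => ι (x i)) ∈ filDR ρ 1 := ⟨hxd, fun i => by
    obtain ⟨z, hz⟩ := piMu_dvd_iff.2 (hX0 i)
    refine ⟨z * (↑u⁻¹ : BPlus p), ?_⟩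
    show ι (x i) = _
    rw [zpow_one, tB, ← map_mul, hz, hu]
    congr 1
    linear_combination -(z * piMu p) * u.mul_inv⟩
  have hfil : filDR ρ 1 = ⊥ := by
    have h1 := finrank_filDR_weights hρ hP 1
    have h2 : (univ.filter fun i : Fin 2 => ![(1 : ℤ), 0] i ≤ -1).card = 0 := by decide
    rw [h2] at h1
    obtain ⟨U'', i'', hU''⟩ := exists_lattice hρ
    haveI := (finrank_filDR hU'' 1).1
    exact Submodule.finrank_eq_zero.1 h1
  rw [hfil, Submodule.mem_bot] at hmem
  exact Subtype.ext (hper.trans hmem)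

end FA.KDR
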