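import Fermat.Agent.PadicExtensions.Trivial
import Fermat.Agent.PotentialDeRham.DeRham
import Fermat.Agent.OrdinaryDeRham.DeRham

/-!
# Twisted cocycles which vanish on an open part of inertia

For a character of exponent zero such a cocycle is a coboundary, plus a multiple of the degree when
the character is trivial. In particular it has a period in `ℂ_p`.
-/

set_option autoImplicit false
set_option linter.unusedSectionVars false

noncomputable section

open FA.TateSen FA.BDR FA.Sen FA.PadicHodge FA.PadicChar FA.PadicExt FA.OrdDR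

namespace FA.KDR

variable {p : ℕ} [hp : Fact p.Prime]

local notation "Cp" => ℂ_[p]
local notation "Ω" => PadicAlgCl p
local notation "G" => PadicAlgCl p ≃ₐ[ℚ_[p]] PadicAlgCl p

variable {η : (PadicAlgCl p ≃ₐ[ℚ_[p]] PadicAlgCl p) →* ℚ_[p]}
  {u : (PadicAlgCl p ≃ₐ[ℚ_[p]] PadicAlgCl p) → ℚ_[p]}

theorem cocycle_one (hu : ∀ σ τ, u (σ * τ) = u σ + η σ * u τ) : u 1 = 0 := by
  have h := hu 1 1
  rw [mul_one, map_one, one_mul] at h
  exact left_eq_add.1 h

/-- A twisted cocycle trivial on inertia and at the Frobenius is trivial. -/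
theorem cocycle_eq_zero_of_unramified (hη : Continuous η) (hc : Continuous u)
    (hu : ∀ σ τ, u (σ * τ) = u σ + η σ * u τ) (hI : ∀ σ ∈ inertiaGal p, u σ = 0) {φ : G}
    (hφ : ∀ (N : ℕ) (z : Ω), ¬ p ∣ N → z ^ N = 1 → φ z = z ^ p) (hφ0 : u φ = 0) (σ : G) :
    u σ = 0 := by
  rw [← norm_le_zero_iff]
  refine le_of_forall_pos_le_add fun ε hε => ?_
  rw [zero_add]
  obtain ⟨k, hk⟩ := exists_urGal_subset (isOpen_lt hc.norm continuous_const) fun τ hτ => by
    show ‖u τ‖ < ε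
    rw [hI τ hτ, norm_zero]
    exact hε
  obtain ⟨a, ha⟩ := exists_pow_frobenius_mem hφ σ k
  have hpow : u (φ ^ a) = 0 := by
    clear ha
    induction a with
    | zero => rw [pow_zero, cocycle_one hu]
    | succ a ih => rw [pow_succ, hu, ih, hφ0, mul_zero, add_zero]
  have h2 := hu (φ ^ a) ((φ ^ a)⁻¹ * σ)
  rw [mul_inv_cancel_left, hpow, zero_add] at h2
  rw [h2, norm_mul, norm_hom_eq_one hη, one_mul]
  exact (hk _ ha : ‖u _‖ < ε).le

theorem cocycle_pow (hu : ∀ σ τ, u (σ * τ) = u σ + η σ * u τ) {τ : G} (hτ : η τ = 1) :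
    ∀ m : ℕ, u (τ ^ m) = m * u τ
  | 0 => by rw [pow_zero, cocycle_one hu, Nat.cast_zero, zero_mul]
  | m + 1 => by
    rw [pow_succ, hu, cocycle_pow hu hτ m, map_pow, hτ, one_pow, one_mul, Nat.cast_succ,
      add_one_mul]

/-- **The structure.** -/
theorem exists_coboundary_degree (hη : Continuous η) (hc : Continuous u)
    (hu : ∀ σ τ, u (σ * τ) = u σ + η σ * u τ) {U : Subgroup G} (hU : IsOpen (U : Set G))
    (hη1 : ∀ σ ∈ U, σ ∈ inertiaGal p → η σ = 1) (hu0 : ∀ σ ∈ U, σ ∈ inertiaGal p → u σ = 0) :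
    ∃ v α : ℚ_[p], (α = 0 ∨ η = 1) ∧
      ∀ σ, u σ = (η σ - 1) * v + α * (degree σ : ℚ_[p]) := by
  obtain ⟨N, hN, hNo, hNU⟩ := FA.Sen.exists_open_normal_subset (hU.mem_nhds U.one_mem)
  have := N.quotient_finite_of_isOpen hNo
  have : N.FiniteIndex := Subgroup.finiteIndex_of_finite_quotient
  have hidx : (N.index : ℚ_[p]) ≠ 0 :=
    Nat.cast_ne_zero.2 Subgroup.FiniteIndex.index_ne_zero
  by_cases h1 : η = 1
  · obtain ⟨α, s, hs⟩ := exists_degree_log hc fun σ τ => by
      rw [hu, h1, MonoidHom.one_apply, one_mul]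
    obtain ⟨γ, hγ⟩ := exists_gen (p := p) (m := 2) le_rfl
    have hm : inertiaLift γ ^ N.index ∈ inertiaGal p := pow_mem (inertiaLift_mem γ) _
    have h2 := hs (inertiaLift γ ^ N.index)
    rw [hu0 _ (hNU _ (N.pow_index_mem _)) hm, degree_inertia hm, PadicInt.coe_zero, mul_zero,
      zero_add, logChi_pow, logChi_congr (chi_inertiaLift γ), eq_comm] at h2
    have hs0 : s = 0 :=
      (mul_eq_zero.1 h2).resolve_right (mul_ne_zero hidx (logChi_gen_ne_zero hγ))
    exact ⟨0, α, Or.inr h1, fun σ => by rw [hs σ, hs0]; ring⟩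
  -- the cocycle minus a coboundary
  have key : ∀ (v : ℚ_[p]) σ τ, (fun σ => u σ - (η σ - 1) * v) (σ * τ) =
      (fun σ => u σ - (η σ - 1) * v) σ + η σ * (fun σ => u σ - (η σ - 1) * v) τ :=
    fun v σ τ => by simp only [hu, map_mul]; ring
  have hfix : ∀ (v : ℚ_[p]) τ, τ ∈ inertiaGal p → η τ = 1 → u τ - (η τ - 1) * v = 0 :=
    fun v τ hτ hτ1 => by
      have h2 := hu0 _ (hNU _ (N.pow_index_mem τ)) (pow_mem hτ _)
      rw [cocycle_pow hu hτ1] at h2
      rw [(mul_eq_zero.1 h2).resolve_left hidx, hτ1, sub_self, zero_mul, sub_zero]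
  by_cases hI : ∃ σ₀ ∈ inertiaGal p, η σ₀ ≠ 1
  · obtain ⟨σ₀, hσ₀, hne⟩ := hI
    set v := u σ₀ / (η σ₀ - 1)
    set w : G → ℚ_[p] := fun σ => u σ - (η σ - 1) * v
    have hne' : η σ₀ - 1 ≠ 0 := sub_ne_zero.2 hne
    have hw0 : w σ₀ = 0 := by
      simp only [w, v]
      rw [mul_div_cancel₀ _ hne', sub_self]
    have kw : ∀ σ τ, w (σ * τ) = w σ + η σ * w τ := key v
    have hwI : ∀ τ ∈ inertiaGal p, w τ = 0 := fun τ hτ => by
      set c := σ₀ * τ * σ₀⁻¹ * τ⁻¹
      have hcI : c ∈ inertiaGal p :=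
        mul_mem (mul_mem (mul_mem hσ₀ hτ) (inv_mem hσ₀)) (inv_mem hτ)
      have hc1 : η c = 1 := by
        have hne0 : ∀ g, η g ≠ 0 := fun g => char_ne_zero hη g
        simp only [c, map_mul]
        rw [mul_right_comm (η σ₀) (η τ), ← map_mul, mul_inv_cancel, map_one, one_mul, ← map_mul,
          mul_inv_cancel, map_one]
      have h2 : w (σ₀ * τ) = w (c * (τ * σ₀)) := congrArg w (by
        simp only [c, mul_assoc, inv_mul_cancel_left, inv_mul_cancel, mul_one])
      rw [kw, kw c, kw τ, show w c = 0 from hfix v c hcI hc1, hc1] at h2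
      rw [hw0, zero_add, mul_zero, add_zero, zero_add, one_mul] at h2
      have h3 : (η σ₀ - 1) * w τ = 0 := by linear_combination h2
      exact (mul_eq_zero.1 h3).resolve_left hne'
    refine ⟨v, 0, Or.inl rfl, fun σ => ?_⟩
    have h2 : w (σ₀ * σ) = w (σ * (σ⁻¹ * σ₀ * σ)) := congrArg w (by
      simp only [mul_assoc, mul_inv_cancel_left])
    rw [kw, kw σ] at h2
    rw [hw0, hwI _ (FA.PotDR.inertiaGal_conj_mem hσ₀ σ), zero_add, mul_zero, add_zero] at h2
    have h3 : (η σ₀ - 1) * w σ = 0 := by linear_combination h2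
    have h4 : u σ - (η σ - 1) * v = 0 := (mul_eq_zero.1 h3).resolve_left hne'
    linear_combination h4
  push Not at hI
  obtain ⟨φ, -, hφ⟩ := exists_frobenius (p := p)
  have hφ1 : η φ ≠ 1 := fun h => h1 (MonoidHom.ext fun σ => sub_eq_zero.1
    (cocycle_eq_zero_of_unramified (u := fun σ => η σ - 1) hη (hη.sub continuous_const)
      (fun a b => by rw [map_mul]; ring) (fun τ hτ => by rw [hI τ hτ, sub_self]) hφ
      (by rw [h, sub_self]) σ))
  refine ⟨u φ / (η φ - 1), 0, Or.inl rfl, fun σ => ?_⟩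
  have h4 := cocycle_eq_zero_of_unramified (u := fun σ => u σ - (η σ - 1) * (u φ / (η φ - 1))) hη
    (hc.sub ((hη.sub continuous_const).mul continuous_const)) (key _)
    (fun τ hτ => hfix _ τ hτ (hI τ hτ)) hφ
    (by rw [mul_div_cancel₀ _ (sub_ne_zero.2 hφ1), sub_self]) σ
  linear_combination h4

/-- **The period of such a cocycle**, relative to a period of the character. -/
theorem exists_additive_period (hη : Continuous η) (hc : Continuous u)
    (hu : ∀ σ τ, u (σ * τ) = u σ + η σ * u τ) {U : Subgroup G} (hU : IsOpen (U : Set G))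
    (hη1 : ∀ σ ∈ U, σ ∈ inertiaGal p → η σ = 1) (hu0 : ∀ σ ∈ U, σ ∈ inertiaGal p → u σ = 0)
    {m : Cp} (hm : ∀ σ, gal σ m = m * algebraMap ℚ_[p] Cp (η σ)) :
    ∃ b : Cp, ∀ σ, gal σ b = m * algebraMap ℚ_[p] Cp (u σ) + b := by
  obtain ⟨v, α, hα, h⟩ := exists_coboundary_degree hη hc hu hU hη1 hu0
  obtain ⟨Y, hY⟩ := exists_degree_period (p := p)
  set f : ℚ_[p] →+* Cp := algebraMap ℚ_[p] Cp
  have hy : ∀ σ, gal σ (thetaPlus p Y) = thetaPlus p Y + f (degree σ : ℚ_[p]) := fun σ => by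
    rw [← thetaPlus_bplusGal, ← smul_bplus_def, hY, map_add, thetaPlus_qpHom]
  refine ⟨m * f v + m * f α * thetaPlus p Y, fun σ => ?_⟩
  have hgα : f (η σ) * f α = f α := by
    rcases hα with h0 | h0
    · rw [h0, map_zero, mul_zero]
    · rw [h0, MonoidHom.one_apply, map_one, one_mul]
  rw [map_add, map_mul, map_mul, map_mul, hm, hy, h σ, map_add, map_mul, map_mul, map_sub, map_one]
  simp only [f, gal_scalar]
  simp only [f] at hgα
  linear_combination (m * thetaPlus p Y + m * algebraMap ℚ_[p] Cp (degree σ : ℚ_[p])) * hgα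

end FA.KDR
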