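import Fermat.Agent.KummerDeRham.Kummer
import Fermat.Agent.KummerDeRham.Criterion
import Fermat.Agent.KummerDeRham.Unramified

/-!
# Points when a line is stable

Let a proper subgroup contain the differences `σ z - z` for `σ` in an open part of inertia, and
let the representation be triangular with quotient trivial there. Then the Kummer cocycle of any
point takes its values on that part in the line, and its period is zero.
-/

set_option autoImplicit false
set_option linter.unusedSectionVars false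
set_option linter.style.haveILetI false

noncomputable section

open Matrix WeierstrassCurve FA.TateSen FA.BDR FA.Sen FA.PadicHodge FA.Frob FA.EC FA.Local
  FA.RT.Tate FA.PadicChar FA.CurveDR FA.OrdDR FA.DRCoh FA.EDR
open scoped WeierstrassCurve.Affine Classical

namespace FA.KDR

variable {p : ℕ} [hp : Fact p.Prime] {W : WeierstrassCurve ℤ} [(ratCurve W).IsElliptic]

local notation "Cp" => ℂ_[p]
local notation "G" => PadicAlgCl p ≃ₐ[ℚ_[p]] PadicAlgCl p

/-- The parametrisation turns scalars into multiples. -/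
theorem phi_smul_mem {B : TateBasis p W} {E : AddSubgroup (Pts W)} (n : ℕ) (a : ℤ_[p])
    {v : Fin 2 → ℤ_[p]} (hv : B.φ n v ∈ E) : B.φ n (a • v) ∈ E := by
  have : NeZero (p ^ n) := ⟨pow_ne_zero _ hp.out.ne_zero⟩
  have e : B.φ n (a • v) = B.φ n ((PadicInt.toZModPow n a).val • v) := B.phi_eq_iff.2 fun i => by
    simp only [Pi.smul_apply, smul_eq_mul, nsmul_eq_mul, map_mul, map_natCast,
      ZMod.natCast_zmod_val]
  rw [e, map_nsmul]
  exact E.nsmul_mem hv _

/-- Two vectors with all parts in a proper subgroup are dependent. -/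
theorem det2_eq_zero_of_mem {B : TateBasis p W} {E : AddSubgroup (Pts W)}
    (hE : ∃ z : Pts W, p • z = 0 ∧ z ∉ E) {w w' : Fin 2 → ℤ_[p]} (hw : ∀ n, B.φ n w ∈ E)
    (hw' : ∀ n, B.φ n w' ∈ E) : det2 w w' = 0 := by
  by_contra hd
  obtain ⟨z, hz, hzE⟩ := hE
  obtain ⟨x, rfl⟩ := B.surj 1 z (by rw [pow_one, hz])
  obtain ⟨u, k, hu⟩ : ∃ (u : ℤ_[p]ˣ) (k : ℕ), det2 w w' = u * (p : ℤ_[p]) ^ k :=
    ⟨_, _, PadicInt.unitCoeff_spec hd⟩
  refine hzE ?_
  set y := (↑u⁻¹ : ℤ_[p]) • x with hy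
  have e : p ^ k • x = det2 y w' • w + det2 w y • w' := by
    funext i
    have h1 : ((p : ℤ_[p]) ^ k) * x i = det2 w w' * y i := by
      simp only [hu, hy, Pi.smul_apply, smul_eq_mul]
      linear_combination -((p : ℤ_[p]) ^ k * x i) * u.mul_inv
    simp only [Pi.smul_apply, Pi.add_apply, smul_eq_mul, nsmul_eq_mul, Nat.cast_pow, h1, det2]
    fin_cases i <;> simp <;> ring
  have h2 : B.φ (1 + k) (p ^ k • x) ∈ E := by
    rw [e, map_add]
    exact add_mem (phi_smul_mem _ _ (hw _)) (phi_smul_mem _ _ (hw' _))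
  rwa [map_nsmul, B.pow_compat] at h2

/-- **A stable line gives period zero.** -/
theorem periodMap_eq_zero_of_line {B : TateBasis p W} (hρ : IsDeRham (curveAtP B))
    {P : (Matrix (Fin 2) (Fin 2) Cp)ˣ}
    (hP : ∀ τ, FA.Sen.conj (cpRep (curveAtP B)) P τ =
      Matrix.diagonal fun i => twist p (![1, 0] i) τ)
    {Q : ℕ → Pts W} (hQ : IsLocalSys p Q) (C : (Matrix (Fin 2) (Fin 2) ℚ_[p])ˣ)
    {T : G → Matrix (Fin 2) (Fin 2) ℚ_[p]}
    (hT : ∀ τ, curveAtP B τ * (C : Matrix (Fin 2) (Fin 2) ℚ_[p]) =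
      (C : Matrix (Fin 2) (Fin 2) ℚ_[p]) * T τ)
    (h10 : ∀ τ, T τ 1 0 = 0) {U : Subgroup G} (hU : IsOpen (U : Set G))
    (h11 : ∀ τ ∈ U, τ ∈ inertiaGal p → T τ 1 1 = 1) {E : AddSubgroup (Pts W)}
    (hE : ∃ z : Pts W, p • z = 0 ∧ z ∉ E)
    (hsub : ∀ τ ∈ U, τ ∈ inertiaGal p → ∀ z : Pts W, localGaloisToGlobal p τ • z - z ∈ E) :
    periodMap hρ (kummerClass B hQ) = 0 := by
  have hqp := isQpRep_curveAtP B
  have hTe : ∀ τ, T τ = (↑C⁻¹ : Matrix (Fin 2) (Fin 2) ℚ_[p]) * curveAtP B τ *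
      (C : Matrix (Fin 2) (Fin 2) ℚ_[p]) := fun τ => by
    rw [mul_assoc, hT, Units.inv_mul_cancel_left]
  have hTC : ∀ τ, T τ * (↑C⁻¹ : Matrix (Fin 2) (Fin 2) ℚ_[p]) =
      (↑C⁻¹ : Matrix (Fin 2) (Fin 2) ℚ_[p]) * curveAtP B τ := fun τ => by
    rw [hTe, Units.mul_inv_cancel_right]
  have hTc : Continuous T := by
    rw [funext hTe]
    exact (continuous_const.mul hqp.cont).mul continuous_const
  let η : G →* ℚ_[p] :=
    { toFun := fun τ => T τ 1 1
      map_one' := by rw [hTe, hqp.map_one, mul_one, Units.inv_mul, Matrix.one_apply_eq]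
      map_mul' := fun σ τ => by
        have e : T (σ * τ) = T σ * T τ := by
          simp only [hTe, hqp.map_mul, mul_assoc, Units.mul_inv_cancel_left]
        rw [e, Matrix.mul_apply, Fin.sum_univ_two, h10, zero_mul, zero_add] }
  have hη : Continuous η := hTc.matrix_elem 1 1
  have hη0 : IsLocAlg η 0 := ⟨U, hU, fun σ hσ hI => by rw [zpow_zero]; exact h11 σ hσ hI⟩
  set u : G → ℚ_[p] := fun τ => ((↑C⁻¹ : Matrix (Fin 2) (Fin 2) ℚ_[p]) *ᵥ kummerAt B Q τ) 1
  have hmem := kummerAt_mem B hQ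
  have hu : ∀ σ τ, u (σ * τ) = u σ + η σ * u τ := fun σ τ => by
    simp only [u, hmem.2 σ τ, Matrix.mulVec_add, Pi.add_apply, Matrix.mulVec_mulVec, ← hTC]
    rw [← Matrix.mulVec_mulVec]
    congr 1
    rw [Matrix.mulVec, dotProduct, Fin.sum_univ_two, h10, zero_mul, zero_add]
    rfl
  have huc : Continuous u :=
    (continuous_apply 1).comp (Continuous.matrix_mulVec continuous_const hmem.1)
  -- the values on inertia lie in the line
  have hu0 : ∀ τ ∈ U, τ ∈ inertiaGal p → u τ = 0 := fun τ hτ hI => by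
    obtain ⟨τ₀, hτ₀, hI₀, hχ⟩ := FA.PotDR.exists_chi_ne_one hU
    set f := PadicInt.Coe.ringHom (p := p)
    set c := kummerAt B Q τ
    set M : Matrix (Fin 2) (Fin 2) ℚ_[p] := curveAtP B τ₀ - 1
    have h0 : ∀ j, det2 c (M *ᵥ Pi.single j 1) = 0 := fun j => by
      set w := B.rep (localGaloisToGlobal p τ₀) *ᵥ Pi.single j 1 - Pi.single j 1 with hw
      have h1 : det2 (kummerVec B Q (localGaloisToGlobal p τ)) w = 0 :=
        det2_eq_zero_of_mem hE (fun n => by
          rw [kummerVec_spec hQ.div (hQ.fixed τ)]; exact hsub τ hτ hI _) fun n => by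
          rw [hw, map_sub, ← B.rep_spec]; exact hsub τ₀ hτ₀ hI₀ _
      have h2 : M *ᵥ Pi.single j 1 = fun i => f (w i) := funext fun i => by
        rw [hw, Matrix.sub_mulVec, Matrix.one_mulVec, Pi.sub_apply, Pi.sub_apply, map_sub,
          Matrix.mulVec_single_one, Matrix.mulVec_single_one, Pi.single_apply, Pi.single_apply,
          apply_ite f, map_one, map_zero]
        rfl
      rw [h2]
      have h3 := congrArg f h1
      rw [map_det2, map_zero] at h3
      exact h3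
    set C' : Matrix (Fin 2) (Fin 2) ℚ_[p] := (C : Matrix (Fin 2) (Fin 2) ℚ_[p])
    set r := C' *ᵥ Pi.single 0 1 with hr
    have h4 : det2 c (M *ᵥ r) = 0 := by
      have e0 := h0 0
      have e1 := h0 1
      simp [det2, Matrix.mulVec, dotProduct, Fin.sum_univ_two] at e0 e1 ⊢
      linear_combination (r 0) * e0 + (r 1) * e1
    have h00 : T τ₀ 0 0 = ((chi p τ₀ : ℤ_[p]) : ℚ_[p]) := by
      have hd : (T τ₀).det = (curveAtP B τ₀).det := by rw [hTe]; exact Matrix.det_units_conj' C _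
      rw [Matrix.det_fin_two, h10, mul_zero, sub_zero, h11 τ₀ hτ₀ hI₀, mul_one,
        det_curveAtP] at hd
      exact hd
    have h5 : M *ᵥ r = (((chi p τ₀ : ℤ_[p]) : ℚ_[p]) - 1) • r := by
      have e : T τ₀ *ᵥ Pi.single 0 1 = ((chi p τ₀ : ℤ_[p]) : ℚ_[p]) • Pi.single 0 1 := by
        funext i
        fin_cases i <;> simp [h00, h10]
      rw [Matrix.sub_mulVec, Matrix.one_mulVec, hr, Matrix.mulVec_mulVec, hT,
        ← Matrix.mulVec_mulVec, e, Matrix.mulVec_smul, sub_smul, one_smul]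
    have h6 : det2 c r = 0 := by
      rw [h5] at h4
      have h7 : (((chi p τ₀ : ℤ_[p]) : ℚ_[p]) - 1) * det2 c r = 0 := by
        simp only [det2, Pi.smul_apply, smul_eq_mul] at h4 ⊢
        linear_combination h4
      exact (mul_eq_zero.1 h7).resolve_left (sub_ne_zero.2 hχ)
    have hc : c = C' *ᵥ ((↑C⁻¹ : Matrix (Fin 2) (Fin 2) ℚ_[p]) *ᵥ c) := by
      rw [Matrix.mulVec_mulVec, Units.mul_inv, Matrix.one_mulVec]
    rw [hc, hr, det2_mulVec, mul_eq_zero] at h6
    have h8 := h6.resolve_left ((Matrix.isUnit_iff_isUnit_det _).1 C.isUnit).ne_zero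
    simp [det2, u, c, Matrix.mulVec, dotProduct, Fin.sum_univ_two] at h8 ⊢
    linear_combination -h8
  -- the row
  obtain ⟨-, Pη, hPη⟩ := locAlg_piece hη hη0
  set c₀ : Cp := (Pη : Matrix Unit Unit Cp) () ()
  have hc₀ : c₀ ≠ 0 := by
    have h1 := ((Matrix.isUnit_iff_isUnit_det _).1 Pη.isUnit).ne_zero
    rwa [Matrix.det_unique] at h1
  set f : ℚ_[p] →+* Cp := algebraMap ℚ_[p] Cp
  have hm : ∀ σ, gal σ c₀⁻¹ = c₀⁻¹ * f (η σ) := fun σ => by
    have h1 := congrFun (congrFun (FA.Sen.conj_eq_iff.1 (hPη σ)) ()) ()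
    rw [cpRep_charRep, Matrix.diagonal_mul, galM_apply, Matrix.mul_diagonal, twist_zero,
      mul_one] at h1
    change f (η σ) * gal σ c₀ = c₀ at h1
    have h2 : f (η σ) ≠ 0 := (map_ne_zero f).2 (char_ne_zero hη σ)
    rw [map_inv₀, eq_div_of_mul_eq h2 ((mul_comm _ _).trans h1), inv_div, div_eq_mul_inv, mul_comm]
  obtain ⟨b, hb⟩ := exists_additive_period hη huc hu hU h11 hu0 hm
  set q : Fin 2 → Cp := ![0, c₀⁻¹]
  set l : Fin 2 → Cp := q ᵥ* (↑C⁻¹ : Matrix (Fin 2) (Fin 2) ℚ_[p]).map f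
  have hl : l ≠ 0 := fun h => by
    have h1 : l ᵥ* (C : Matrix (Fin 2) (Fin 2) ℚ_[p]).map f = q := by
      rw [Matrix.vecMul_vecMul, ← Matrix.map_mul, Units.inv_mul,
        Matrix.map_one _ (map_zero f) (map_one f), Matrix.vecMul_one]
    rw [h, Matrix.zero_vecMul] at h1
    exact inv_ne_zero hc₀ (by simpa [q] using (congrFun h1 1).symm)
  obtain ⟨j, hj⟩ := Function.ne_iff.1 hl
  refine periodMap_eq_zero_of_row hqp hρ hP (det_curveAtP B) _ hU
    (e := Sum.elim l fun _ => b) (fun τ _ => isFixedRow_ext.2 ⟨?_, ?_⟩) (j := j) hj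
  · show (fun k => gal τ (l k)) = l ᵥ* (curveAtP B τ).map f
    have hq : (fun k => gal τ (q k)) = q ᵥ* (T τ).map f := funext fun k => by
      fin_cases k
      · simp [q, Matrix.vecMul, dotProduct, h10]
      · simp [q, η, Matrix.vecMul, dotProduct, hm τ]
    rw [show (fun k => gal τ (l k)) = (fun k => gal τ (q k)) ᵥ*
        (↑C⁻¹ : Matrix (Fin 2) (Fin 2) ℚ_[p]).map f from funext fun k => by
      simp only [l, Matrix.vecMul, dotProduct, map_sum, map_mul, Matrix.map_apply, f, gal_scalar],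
      hq, Matrix.vecMul_vecMul, Matrix.vecMul_vecMul, ← Matrix.map_mul, ← Matrix.map_mul, hTC]
  · show gal τ b = ∑ k, l k * f (kummerAt B Q τ k) + b
    rw [hb τ]
    congr 1
    simp [l, q, u, Matrix.vecMul, Matrix.mulVec, dotProduct, Fin.sum_univ_two, f]
    ring

end FA.KDR
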