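import Fermat.Agent.EveryDeRham.Main
import Fermat.Agent.Root.SummaryPointDivisibility

/-!
# The Kummer cocycle of a point

For a point `P` fixed by a group of automorphisms and a system of its `p ^ n`-th parts the
differences `σ Qₙ - Qₙ` form a cocycle with values in the Tate module. It is continuous, additive
in the system, and two systems of the same point give cocycles differing by a coboundary.
-/

set_option autoImplicit false
set_option linter.unusedSectionVars false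
set_option linter.style.haveILetI false

noncomputable section

open Filter Topology Matrix WeierstrassCurve FA.TateSen FA.BDR FA.PadicHodge FA.Frob FA.EC FA.Local
  FA.RT.Tate FA.CurveDR FA.DRCoh
open scoped WeierstrassCurve.Affine Classical

namespace FA.KDR

variable {p : ℕ} [hp : Fact p.Prime] {W : WeierstrassCurve ℤ} [(ratCurve W).IsElliptic]

local notation "G" => PadicAlgCl p ≃ₐ[ℚ_[p]] PadicAlgCl p
local notation "Qb" => AlgebraicClosure ℚ
local notation "GQ" => AlgebraicClosure ℚ ≃ₐ[ℚ] AlgebraicClosure ℚ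

variable (p) in
/-- A system of `p ^ n`-th parts of its term of index zero. -/
def IsDivSys (Q : ℕ → Pts W) : Prop := ∀ n, p • Q (n + 1) = Q n

theorem IsDivSys.pow_nsmul {Q : ℕ → Pts W} (hQ : IsDivSys p Q) :
    ∀ n : ℕ, p ^ n • Q n = Q 0
  | 0 => by rw [pow_zero, one_nsmul]
  | n + 1 => by rw [pow_succ, mul_nsmul', hQ n, hQ.pow_nsmul n]

theorem IsDivSys.add {Q Q' : ℕ → Pts W} (hQ : IsDivSys p Q) (hQ' : IsDivSys p Q') :
    IsDivSys p (Q + Q') := fun n => by
  rw [Pi.add_apply, Pi.add_apply, nsmul_add, hQ, hQ']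

theorem IsDivSys.nsmul {Q : ℕ → Pts W} (hQ : IsDivSys p Q) (N : ℕ) :
    IsDivSys p (N • Q) := fun n => by
  rw [Pi.smul_apply, Pi.smul_apply, smul_comm, hQ]

variable (p) in
theorem exists_divSys (P : Pts W) : ∃ Q : ℕ → Pts W, IsDivSys p Q ∧ Q 0 = P := by
  choose g hg using fun x : Pts W => FA.PointDiv.exists_div W hp.out.ne_zero x
  exact ⟨fun n => Nat.rec P (fun _ x => g x) n, fun n => hg _, rfl⟩

/-- The vector of the differences of a system. -/
def kummerVec (B : TateBasis p W) (Q : ℕ → Pts W) (σ : GQ) : Fin 2 → ℤ_[p] :=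
  Classical.epsilon fun c => ∀ n, B.φ n c = σ • Q n - Q n

variable {B : TateBasis p W}

theorem vec_ext {a b : Fin 2 → ℤ_[p]} (h : ∀ n, B.φ n a = B.φ n b) : a = b :=
  funext fun i => PadicInt.ext_of_toZModPow.mp fun n => B.phi_eq_iff.1 (h n) i

theorem kummerVec_spec {Q : ℕ → Pts W} (hQ : IsDivSys p Q) {σ : GQ} (h0 : σ • Q 0 = Q 0)
    (n : ℕ) : B.φ n (kummerVec B Q σ) = σ • Q n - Q n := by
  refine Classical.epsilon_spec (p := fun c => ∀ n, B.φ n c = σ • Q n - Q n) ?_ n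
  refine B.exists_vec (fun n => ?_) fun n => ?_
  · rw [nsmul_sub, ← gal_smul_nsmul, hQ.pow_nsmul, h0, sub_self]
  · rw [nsmul_sub, ← gal_smul_nsmul, hQ]

theorem kummerVec_mul {Q : ℕ → Pts W} (hQ : IsDivSys p Q) {σ τ : GQ} (hσ : σ • Q 0 = Q 0)
    (hτ : τ • Q 0 = Q 0) :
    kummerVec B Q (σ * τ) = kummerVec B Q σ + B.rep σ *ᵥ kummerVec B Q τ := by
  refine vec_ext (B := B) fun n => ?_
  rw [map_add, ← B.rep_spec, kummerVec_spec hQ hσ, kummerVec_spec hQ hτ,
    kummerVec_spec hQ (by rw [mul_smul, hτ, hσ]), mul_smul, smul_sub]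
  abel

theorem kummerVec_add {Q Q' : ℕ → Pts W} (hQ : IsDivSys p Q) (hQ' : IsDivSys p Q') {σ : GQ}
    (hσ : σ • Q 0 = Q 0) (hσ' : σ • Q' 0 = Q' 0) :
    kummerVec B (Q + Q') σ = kummerVec B Q σ + kummerVec B Q' σ := by
  refine vec_ext (B := B) fun n => ?_
  have h0 : σ • (Q + Q') 0 = (Q + Q') 0 := by
    rw [Pi.add_apply, gal_smul_add, hσ, hσ']
  rw [map_add, kummerVec_spec (hQ.add hQ') h0, kummerVec_spec hQ hσ, kummerVec_spec hQ' hσ',
    Pi.add_apply, gal_smul_add]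
  abel

theorem kummerVec_nsmul {Q : ℕ → Pts W} (hQ : IsDivSys p Q) {σ : GQ} (hσ : σ • Q 0 = Q 0)
    (N : ℕ) : kummerVec B (N • Q) σ = N • kummerVec B Q σ := by
  refine vec_ext (B := B) fun n => ?_
  have h0 : σ • (N • Q) 0 = (N • Q) 0 := by rw [Pi.smul_apply, gal_smul_nsmul, hσ]
  rw [map_nsmul, kummerVec_spec (hQ.nsmul N) h0, kummerVec_spec hQ hσ, Pi.smul_apply,
    gal_smul_nsmul, nsmul_sub]

/-- **Two systems of one point differ by a torsion vector.** -/
theorem exists_change {Q Q' : ℕ → Pts W} (hQ : IsDivSys p Q) (hQ' : IsDivSys p Q')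
    (h : Q' 0 = Q 0) : ∃ v : Fin 2 → ℤ_[p], ∀ σ : GQ, σ • Q 0 = Q 0 →
      kummerVec B Q' σ = kummerVec B Q σ + (B.rep σ *ᵥ v - v) := by
  obtain ⟨v, hv⟩ := B.exists_vec (x := fun n => Q' n - Q n)
    (fun n => by rw [nsmul_sub, hQ.pow_nsmul, hQ'.pow_nsmul, h, sub_self])
    (fun n => by rw [nsmul_sub, hQ, hQ'])
  refine ⟨v, fun σ hσ => vec_ext (B := B) fun n => ?_⟩
  rw [map_add, map_sub, ← B.rep_spec, hv, kummerVec_spec hQ' (h.symm ▸ hσ), kummerVec_spec hQ hσ,
    smul_sub]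
  abel

/-- The stabiliser of a point is open. -/
theorem exists_open_stabiliser (P : Pts W) :
    ∃ S : Set Qb, S.Finite ∧ ∀ σ : GQ, (∀ x ∈ S, σ x = x) → σ • P = P := by
  rcases P with _ | ⟨x, y, h⟩
  · exact ⟨∅, Set.finite_empty, fun σ _ => gal_smul_zero _ σ⟩
  · refine ⟨{x, y}, by simp, fun σ hσ => ?_⟩
    obtain ⟨h', he⟩ := smul_some (σ := σ) (ratCurve W) h
    rw [he]
    simp [hσ x (by simp), hσ y (by simp)]

/-- **Continuity.** -/
theorem continuous_kummerVec {H : Type*} [Group H] [TopologicalSpace H] [IsTopologicalGroup H]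
    (f : H →* GQ) (hf : Continuous f) {Q : ℕ → Pts W} (hQ : IsDivSys p Q)
    (h0 : ∀ τ, f τ • Q 0 = Q 0) : Continuous fun τ => kummerVec B Q (f τ) := by
  refine continuous_pi fun i => continuous_iff_continuousAt.2 fun τ₀ => Metric.tendsto_nhds.2
    fun ε hε => ?_
  obtain ⟨n, hn⟩ := PadicInt.exists_pow_neg_lt p hε
  obtain ⟨S, hS, hfix⟩ := exists_open_stabiliser (Q n)
  have hopen : IsOpen ((IntermediateField.adjoin ℚ S).fixingSubgroup : Set GQ) := by
    haveI := hS.to_subtype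
    haveI : FiniteDimensional ℚ (IntermediateField.adjoin ℚ S) :=
      IntermediateField.finiteDimensional_adjoin fun x _ => Algebra.IsIntegral.isIntegral x
    exact IntermediateField.fixingSubgroup_isOpen _
  have hev : ∀ᶠ τ in 𝓝 τ₀, f (τ₀⁻¹ * τ) ∈ (IntermediateField.adjoin ℚ S).fixingSubgroup :=
    ((hopen.preimage hf).preimage (continuous_const_mul τ₀⁻¹)).mem_nhds (by simp)
  filter_upwards [hev] with τ hτ
  refine lt_of_le_of_lt ?_ hn
  rw [dist_eq_norm, PadicInt.norm_le_pow_iff_mem_span_pow, ← PadicInt.ker_toZModPow,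
    RingHom.mem_ker, map_sub, sub_eq_zero]
  refine B.phi_eq_iff.1 ?_ i
  rw [kummerVec_spec hQ (h0 τ), kummerVec_spec hQ (h0 τ₀)]
  have h1 := hfix _ fun x hx => (IntermediateField.mem_fixingSubgroup_iff _ _).1 hτ x
    (IntermediateField.subset_adjoin _ _ hx)
  conv_lhs => rw [show τ = τ₀ * (τ₀⁻¹ * τ) by rw [mul_inv_cancel_left], map_mul, mul_smul, h1]

/-! ### The cocycle over `ℚ_p` -/

/-- The cocycle of a system as a function on the Galois group of `ℚ_p`. -/
def kummerAt (B : TateBasis p W) (Q : ℕ → Pts W) (τ : G) (i : Fin 2) : ℚ_[p] :=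
  ((kummerVec B Q (localGaloisToGlobal p τ) i : ℤ_[p]) : ℚ_[p])

variable (p) in
/-- The system is one of a point fixed by the decomposition group. -/
structure IsLocalSys (Q : ℕ → Pts W) : Prop where
  div : IsDivSys p Q
  fixed : ∀ τ : PadicAlgCl p ≃ₐ[ℚ_[p]] PadicAlgCl p, localGaloisToGlobal p τ • Q 0 = Q 0

theorem IsLocalSys.add {Q Q' : ℕ → Pts W} (hQ : IsLocalSys p Q) (hQ' : IsLocalSys p Q') :
    IsLocalSys p (Q + Q') :=
  ⟨hQ.div.add hQ'.div, fun τ => by rw [Pi.add_apply, gal_smul_add, hQ.fixed, hQ'.fixed]⟩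

theorem IsLocalSys.nsmul {Q : ℕ → Pts W} (hQ : IsLocalSys p Q) (N : ℕ) :
    IsLocalSys p (N • Q) :=
  ⟨hQ.div.nsmul N, fun τ => by rw [Pi.smul_apply, gal_smul_nsmul, hQ.fixed]⟩

theorem coe_rep_mulVec (B : TateBasis p W) (τ : G) (v : Fin 2 → ℤ_[p]) :
    (fun i => (((B.rep (localGaloisToGlobal p τ) *ᵥ v) i : ℤ_[p]) : ℚ_[p])) =
      curveAtP B τ *ᵥ fun i => ((v i : ℤ_[p]) : ℚ_[p]) :=
  funext fun i => RingHom.map_mulVec (PadicInt.Coe.ringHom (p := p)) _ v i

theorem kummerAt_mem (B : TateBasis p W) {Q : ℕ → Pts W} (hQ : IsLocalSys p Q) :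
    kummerAt B Q ∈ cocyclesOne (curveAtP B) := by
  refine ⟨continuous_pi fun i => continuous_subtype_val.comp ((continuous_apply i).comp
    (continuous_kummerVec (B := B) _ FA.GalCoh.continuous_loc hQ.div hQ.fixed)), fun σ τ => ?_⟩
  funext i
  rw [Pi.add_apply, kummerAt, map_mul, kummerVec_mul hQ.div (hQ.fixed σ) (hQ.fixed τ),
    Pi.add_apply, PadicInt.coe_add]
  exact congrArg _ (congrFun (coe_rep_mulVec B σ _) i)

/-- **The Kummer cocycle.** -/
def kummerClass (B : TateBasis p W) {Q : ℕ → Pts W} (hQ : IsLocalSys p Q) :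
    cocyclesOne (curveAtP B) :=
  ⟨kummerAt B Q, kummerAt_mem B hQ⟩

theorem kummerClass_add (B : TateBasis p W) {Q Q' : ℕ → Pts W} (hQ : IsLocalSys p Q)
    (hQ' : IsLocalSys p Q') :
    kummerClass B (hQ.add hQ') = kummerClass B hQ + kummerClass B hQ' := by
  refine Subtype.ext (funext fun τ => funext fun i => ?_)
  show kummerAt B (Q + Q') τ i = kummerAt B Q τ i + kummerAt B Q' τ i
  rw [kummerAt, kummerVec_add hQ.div hQ'.div (hQ.fixed τ) (hQ'.fixed τ), Pi.add_apply,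
    PadicInt.coe_add]
  rfl

theorem kummerClass_nsmul (B : TateBasis p W) {Q : ℕ → Pts W} (hQ : IsLocalSys p Q) (N : ℕ) :
    kummerClass B (hQ.nsmul N) = N • kummerClass B hQ := by
  refine Subtype.ext (funext fun τ => funext fun i => ?_)
  show kummerAt B (N • Q) τ i = N • kummerAt B Q τ i
  rw [kummerAt, kummerVec_nsmul hQ.div (hQ.fixed τ), Pi.smul_apply, nsmul_eq_mul, nsmul_eq_mul,
    PadicInt.coe_mul, PadicInt.coe_natCast]
  rfl

/-- Two systems of one point have cocycles differing by a coboundary. -/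
theorem kummerClass_change (B : TateBasis p W) {Q Q' : ℕ → Pts W} (hQ : IsLocalSys p Q)
    (hQ' : IsLocalSys p Q') (h : Q' 0 = Q 0) : ∃ v : Fin 2 → ℚ_[p], ∀ τ,
      (kummerClass B hQ' - kummerClass B hQ : cocyclesOne (curveAtP B)).1 τ =
        curveAtP B τ *ᵥ v - v := by
  obtain ⟨v, hv⟩ := exists_change (B := B) hQ.div hQ'.div h
  refine ⟨fun i => ((v i : ℤ_[p]) : ℚ_[p]), fun τ => ?_⟩
  rw [← coe_rep_mulVec]
  funext i
  show kummerAt B Q' τ i - kummerAt B Q τ i = _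
  rw [kummerAt, hv _ (hQ.fixed τ), Pi.add_apply, PadicInt.coe_add, Pi.sub_apply, Pi.sub_apply,
    PadicInt.coe_sub, kummerAt, add_sub_cancel_left]

/-- The period of the class does not depend on the system. -/
theorem periodMap_change {hρ : IsDeRham (curveAtP B)} {Q Q' : ℕ → Pts W} (hQ : IsLocalSys p Q)
    (hQ' : IsLocalSys p Q') (h : Q' 0 = Q 0) :
    periodMap hρ (kummerClass B hQ') = periodMap hρ (kummerClass B hQ) := by
  obtain ⟨v, hv⟩ := kummerClass_change B hQ hQ' h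
  exact sub_eq_zero.1 ((map_sub _ _ _).symm.trans (periodMap_coboundary hρ _ hv))

/-- It is enough to treat a nonzero multiple of the point, with any system of it. -/
theorem periodMap_eq_zero_of_nsmul {hρ : IsDeRham (curveAtP B)} {Q Q' : ℕ → Pts W}
    (hQ : IsLocalSys p Q) (hQ' : IsLocalSys p Q') {N : ℕ} (hN : N ≠ 0) (h : Q' 0 = N • Q 0)
    (h0 : periodMap hρ (kummerClass B hQ') = 0) : periodMap hρ (kummerClass B hQ) = 0 := by
  have h1 := periodMap_change (hρ := hρ) (hQ.nsmul N) hQ' h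
  rw [h0, kummerClass_nsmul, map_nsmul, ← Nat.cast_smul_eq_nsmul ℚ_[p]] at h1
  exact (smul_eq_zero.1 h1.symm).resolve_left (Nat.cast_ne_zero.2 hN)

end FA.KDR
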