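import Fermat.Agent.EveryDeRham.Congruent
import Fermat.Agent.ModField.Congruence.Export
import Mathlib.FieldTheory.Finite.Basic

/-!
# A multiple of every point lies in the kernel of reduction

The residue field of the place at `p` is algebraic over the prime field, so every point of an
equation over it is defined over a finite field and has finite order.
-/

set_option autoImplicit false
set_option linter.unusedSectionVars false
set_option linter.style.haveILetI false

noncomputable section

open WeierstrassCurve FA.Frob FA.EC FA.Local FA.OrdDR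
open scoped WeierstrassCurve.Affine Classical

namespace FA.KDR

variable {p : ℕ} [hp : Fact p.Prime]

local notation "Qb" => AlgebraicClosure ℚ

/-- The residue field of the place at `p` is algebraic over the prime field. -/
theorem isIntegral_resP [Algebra (ZMod p) (ResP p)] (b : ResP p) : IsIntegral (ZMod p) b := by
  obtain ⟨x, rfl⟩ := IsLocalRing.residue_surjective b
  refine (IsAlgebraic.isIntegral ?_)
  obtain ⟨f, hf0, hf⟩ : ∃ f : Polynomial ℤ, f ≠ 0 ∧ Polynomial.aeval (x : Qb) f = 0 :=
    (IsFractionRing.isAlgebraic_iff ℤ ℚ Qb).mpr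
      ((AlgebraicClosure.isAlgebraic ℚ).isAlgebraic _)
  have hg : Polynomial.aeval x f.primPart = 0 := by
    refine Subtype.ext ?_
    have h := hf
    rw [f.eq_C_content_mul_primPart, map_mul, Polynomial.aeval_C, mul_eq_zero] at h
    have h2 : Polynomial.aeval (x : Qb) f.primPart = 0 := h.resolve_left (by
      simpa using mt Polynomial.content_eq_zero_iff.mp hf0)
    rw [ZeroMemClass.coe_zero, ← h2]
    exact (Polynomial.map_aeval_eq_aeval_map (φ := RingHom.id ℤ) (ψ := (padicPlace p).subtype)
      (RingHom.ext_int _ _) f.primPart x).trans (by rw [Polynomial.map_id]; rfl)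
  refine ⟨f.primPart.map (Int.castRingHom (ZMod p)), fun h0 => ?_, ?_⟩
  · have hdvd : Polynomial.C (p : ℤ) ∣ f.primPart := by
      rw [Polynomial.C_dvd_iff_dvd_coeff]
      intro i
      rw [← ZMod.intCast_zmod_eq_zero_iff_dvd]
      simpa using congrArg (fun q : Polynomial (ZMod p) => q.coeff i) h0
    exact (Nat.prime_iff_prime_int.mp hp.out).not_isUnit (f.isPrimitive_primPart (p : ℤ) hdvd)
  · refine (Polynomial.map_aeval_eq_aeval_map (φ := Int.castRingHom (ZMod p))
      (ψ := IsLocalRing.residue (padicPlace p)) (RingHom.ext_int _ _) f.primPart x).symm.trans ?_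
    rw [hg, map_zero]

/-- **Every point of an equation over the residue field has finite order.** -/
theorem isOfFinAddOrder_resP (E : WeierstrassCurve (ResP p)) (R : E.toAffine.Point) :
    IsOfFinAddOrder R := by
  rcases R with _ | ⟨x, y, h⟩
  · exact IsOfFinAddOrder.zero
  letI : Algebra (ZMod p) (ResP p) := ZMod.algebra _ p
  set S : Set (ResP p) := {E.a₁, E.a₂, E.a₃, E.a₄, E.a₆, x, y}
  set K := IntermediateField.adjoin (ZMod p) S
  have hS : ∀ b ∈ S, b ∈ K := fun b hb => IntermediateField.subset_adjoin _ _ hb
  haveI : Finite S := (show S.Finite by simp [S]).to_subtype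
  haveI : FiniteDimensional (ZMod p) K :=
    IntermediateField.finiteDimensional_adjoin fun b _ => isIntegral_resP b
  haveI : Finite K := Module.finite_of_finite (ZMod p)
  let EK : WeierstrassCurve K := ⟨⟨E.a₁, hS _ (by simp [S])⟩, ⟨E.a₂, hS _ (by simp [S])⟩,
    ⟨E.a₃, hS _ (by simp [S])⟩, ⟨E.a₄, hS _ (by simp [S])⟩, ⟨E.a₆, hS _ (by simp [S])⟩⟩
  let f : K →+* ResP p := K.val.toRingHom
  have hE : EK.map f = E := rfl
  let xK : K := ⟨x, hS _ (by simp [S])⟩
  let yK : K := ⟨y, hS _ (by simp [S])⟩
  have hK : EK.toAffine.Nonsingular xK yK := by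
    exact (Affine.map_nonsingular (f := f) EK.toAffine f.injective xK yK).1 h
  haveI : Finite EK.toAffine.Point := Finite.of_injective
    (fun P : EK.toAffine.Point => match P with
      | .zero => (none : Option (K × K))
      | .some a b _ => some (a, b))
    (by
      rintro (_ | ⟨a, b, _⟩) (_ | ⟨a', b', _⟩) e
      · rfl
      · simp at e
      · simp at e
      · simp only [Option.some.injEq, Prod.mk.injEq] at e
        obtain ⟨rfl, rfl⟩ := e
        rfl)
  exact AddMonoidHom.isOfFinAddOrder (mapHom f hE)
    (isOfFinAddOrder_of_finite (Affine.Point.some xK yK hK))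

/-- **A multiple of every point lies in the kernel of reduction.** -/
theorem exists_nsmul_e1 {V : WeierstrassCurve Qb} [V.IsElliptic]
    (hI : IntCoeff (padicPlace p).valuation V.toAffine)
    (hΔ : (padicPlace p).valuation V.Δ = 1) (z : V.toAffine.Point) :
    ∃ N : ℕ, N ≠ 0 ∧ E1 (padicPlace p).valuation V.toAffine (N • z) := by
  haveI := redCurve_isElliptic hI hΔ
  obtain ⟨N, hN, hNz⟩ := (isOfFinAddOrder_iff_nsmul_eq_zero).1
    (isOfFinAddOrder_resP _ (redHom hI hΔ z))
  refine ⟨N, hN.ne', (redFun_eq_zero_iff hI).1 ?_⟩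
  rw [← redHom_apply hI hΔ, map_nsmul]
  exact hNz

end FA.KDR
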