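import Fermat.Agent.EveryDeRham.PotSupersingular
import Fermat.Agent.KummerDeRham.Residue

/-!
# Deep multiples in the kernel of reduction

Multiplication by `p` shrinks the parameter of a point, so an iterate is divisible by any given
nonzero element.
-/

set_option autoImplicit false
set_option linter.unusedSectionVars false

noncomputable section

open Ideal WeierstrassCurve FA.TateSen FA.BDR FA.BDRCoh FA.PadicHodge FA.SSDR FA.EDR
open scoped WeierstrassCurve.Affine Classical

namespace FA.KDR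

attribute [local irreducible] fgAdd wSeries mulN

variable {p : ℕ} [hp : Fact p.Prime]

local notation "C" => ℂ_[p]

theorem norm_evI_mulN_le (V : WeierstrassCurve (OC p)) {t : OC p}
    (ht : t ∈ (span {(p : OC p)}).radical) :
    ‖((evI (fun _ : Unit => t) (fun _ => ht) (mulN V p) : OC p) : C)‖ ≤
      max ‖(p : C)‖ ‖(t : C)‖ * ‖(t : C)‖ := by
  set e := evI (fun _ : Unit => t) fun _ => ht
  have h1 : (varIdeal Unit (OC p)).map e ≤ span {t} := by
    refine Ideal.map_le_iff_le_comap.2 (Ideal.span_le.2 ?_)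
    rintro _ ⟨⟨⟩, rfl⟩
    show e (MvPowerSeries.X ()) ∈ span {t}
    rw [evz_X]
    exact mem_span_singleton_self _
  have h2 := Ideal.mem_map_of_mem e (mulN_sub_mem V p)
  rw [Ideal.map_pow] at h2
  have h3 := Ideal.pow_right_mono h1 2 h2
  rw [map_sub, map_mul, map_natCast, PowerSeries.X, evz_X, span_singleton_pow,
    mem_span_singleton] at h3
  obtain ⟨c, hc⟩ := h3
  rw [sub_eq_iff_eq_add'.1 hc, AddMemClass.coe_add, MulMemClass.coe_mul, MulMemClass.coe_mul,
    SubmonoidClass.coe_pow, coe_natCast_OC]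
  refine (IsUltrametricDist.norm_add_le_max _ _).trans (max_le ?_ ?_)
  · rw [norm_mul]
    exact mul_le_mul_of_nonneg_right (le_max_left _ _) (norm_nonneg _)
  · rw [norm_mul, norm_pow, sq]
    exact (mul_le_of_le_one_right (by positivity) (norm_OC_le c)).trans
      (mul_le_mul_of_nonneg_right (le_max_right _ _) (norm_nonneg _))

variable {π : OC p} {W₀ : WeierstrassCurve ℤ} {V : WeierstrassCurve (OC p)}
  [(V.map (ocC p)).IsElliptic]

/-- **An iterate is divisible by `π`.** -/
theorem exists_pow_nsmul_mem (h : IsNear π W₀ V) {t : OC p}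
    (ht : t ∈ (span {(p : OC p)}).radical) :
    ∃ (k : ℕ) (t' : OC p) (ht' : t' ∈ (span {(p : OC p)}).radical),
      t' ∈ span {π} ∧ p ^ k • ptG V ht = ptG V ht' := by
  set r := max ‖(p : C)‖ ‖(t : C)‖
  have hr : r < 1 := max_lt FA.FontaineWintenberger.norm_p_C_lt (norm_lt_of_radical ht)
  have hr0 : 0 ≤ r := le_max_of_le_left (norm_nonneg _)
  have key : ∀ k : ℕ, ∃ (s : OC p) (hs : s ∈ (span {(p : OC p)}).radical),
      ‖(s : C)‖ ≤ r ^ (k + 1) ∧ p ^ k • ptG V ht = ptG V hs := by
    intro k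
    induction k with
    | zero => exact ⟨t, ht, by rw [zero_add, pow_one]; exact le_max_right _ _, one_nsmul _⟩
    | succ k ih =>
      obtain ⟨s, hs, hsr, hse⟩ := ih
      refine ⟨_, evI_radical (fun _ : Unit => hs) (constantCoeff_mulN V p),
        (norm_evI_mulN_le V hs).trans ?_, ?_⟩
      · rw [pow_succ' r (k + 1)]
        exact mul_le_mul (max_le (le_max_left _ _) (hsr.trans (pow_le_of_le_one hr0 hr.le
          k.succ_ne_zero))) hsr (norm_nonneg _) hr0
      · rw [ptG_mulN V hs p, ← hse, ← mul_nsmul', ← pow_succ']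
  have hπ0 : (π : C) ≠ 0 := fun h0 => by
    obtain ⟨d, hd⟩ := h.dvd_p
    have h1 := congrArg (fun y : OC p => (y : C)) hd
    simp only [MulMemClass.coe_mul, coe_natCast_OC, h0, zero_mul] at h1
    exact hp.out.ne_zero (Nat.cast_eq_zero.1 h1)
  obtain ⟨k, hk⟩ := exists_pow_lt_of_lt_one (norm_pos_iff.2 hπ0) hr
  obtain ⟨s, hs, hsr, hse⟩ := key k
  refine ⟨k, s, hs, mem_span_singleton.2
    ⟨mkOC ((s : C) / π) ?_, Subtype.ext ?_⟩, hse⟩
  · rw [norm_div, div_le_one (norm_pos_iff.2 hπ0)]
    exact hsr.trans ((pow_le_pow_of_le_one hr0 hr.le k.le_succ).trans hk.le)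
  · rw [MulMemClass.coe_mul, coe_mkOC, mul_div_cancel₀ _ hπ0]

end FA.KDR
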