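import Fermat.Agent.KummerDeRham.Main
import Fermat.Agent.SubgroupDetection.Translations
import Fermat.Agent.MordellWeil.Summary
import Fermat.Agent.Curve37.Main

/-!
# The class of a rational point over `ℚ`

The cocycle of a rational point on the Galois group of `ℚ` is continuous and unramified at the
good primes other than `p`, and it is not a coboundary over `ℚ_p` when the point has infinite
order.
-/

set_option autoImplicit false
set_option linter.unusedSectionVars false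
set_option linter.style.haveILetI false

noncomputable section

open Matrix WeierstrassCurve FA.TateSen FA.BDR FA.PadicHodge FA.Frob FA.EC FA.Local
  FA.RT.Tate FA.CurveDR FA.DRCoh FA.PointDiv
open scoped WeierstrassCurve.Affine Classical

namespace FA.KDR

variable {p : ℕ} [hp : Fact p.Prime] {W : WeierstrassCurve ℤ} [(ratCurve W).IsElliptic]
  {B : TateBasis p W}

local notation "Qb" => AlgebraicClosure ℚ
local notation "GQ" => AlgebraicClosure ℚ ≃ₐ[ℚ] AlgebraicClosure ℚ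

/-- **Continuity over `ℚ`.** -/
theorem continuous_kummerVec_global {Q : ℕ → Pts W} (hQ : IsDivSys p Q)
    (h0 : ∀ σ : GQ, σ • Q 0 = Q 0) : Continuous fun σ : GQ => kummerVec B Q σ :=
  continuous_kummerVec (MonoidHom.id GQ) continuous_id hQ h0

/-- **Unramified at the good primes other than `p`.** -/
theorem kummerVec_inertia_eq_zero {q : ℕ} {A : ValuationSubring Qb} (hq : q.Prime)
    (hA : A.LiesOverPrime q) (hqp : q ≠ p) (hgood : W.IsGoodPrimeFor q) {Q : ℕ → Pts W}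
    (hQ : IsDivSys p Q) {σ : GQ} (hσ : σ ∈ A.inertiaSubgroupIn ℚ) (h0 : σ • Q 0 = Q 0) :
    kummerVec B Q σ = 0 := by
  refine vec_ext (B := B) fun n => ?_
  rw [map_zero, kummerVec_spec hQ h0]
  exact eq_zero_of_e1_pow hq hA hqp
    ((inert_of_mem_inertiaSubgroupIn A hσ).e1_smul_sub_of_good (ratCurve W)
      (intCoeff_ratCurve W A) (valuation_Δ_ratCurve W hq hA hgood) (Q n))
    (n := n) (by rw [nsmul_sub, ← gal_smul_nsmul, hQ.pow_nsmul, h0, sub_self])

theorem exists_pow_mul_eq (v : Fin 2 → ℚ_[p]) :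
    ∃ (k : ℕ) (w : Fin 2 → ℤ_[p]), ∀ i, ((w i : ℤ_[p]) : ℚ_[p]) = (p : ℚ_[p]) ^ k * v i := by
  have h : ∀ x : ℚ_[p], ∃ k : ℕ, ∀ m, k ≤ m → ‖(p : ℚ_[p]) ^ m * x‖ ≤ 1 := fun x => by
    have ht : Filter.Tendsto (fun m : ℕ => ‖(p : ℚ_[p]) ^ m * x‖) Filter.atTop (nhds 0) := by
      simpa [norm_mul, norm_pow] using (tendsto_pow_atTop_nhds_zero_of_lt_one (norm_nonneg _)
        (Padic.norm_p_lt_one (p := p))).mul_const ‖x‖
    exact Filter.eventually_atTop.1 (ht.eventually (ge_mem_nhds zero_lt_one))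
  choose k hk using fun i => h (v i)
  refine ⟨k 0 + k 1, fun i => ⟨_, hk i (k 0 + k 1) ?_⟩, fun i => rfl⟩
  fin_cases i <;> simp

/-- **The class of a point of infinite order is not a coboundary over `ℚ`.** -/
theorem not_coboundary_of_infinite_order {R : (ratCurve W).toAffine.Point}
    (hR : ¬ IsOfFinAddOrder R) {Q : ℕ → Pts W} (hQ : IsDivSys p Q) (hQ0 : Q 0 = up W R) :
    ¬ ∃ v : Fin 2 → ℚ_[p], ∀ σ : GQ, (fun i => ((kummerVec B Q σ i : ℤ_[p]) : ℚ_[p])) =
      (B.rep σ).map PadicInt.Coe.ringHom *ᵥ v - v := by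
  rintro ⟨v, hv⟩
  have h0 : ∀ σ : GQ, σ • Q 0 = Q 0 := fun σ => by rw [hQ0]; exact smul_up W σ R
  obtain ⟨k, w, hw⟩ := exists_pow_mul_eq v
  have hc : ∀ σ : GQ, p ^ k • kummerVec B Q σ + w = B.rep σ *ᵥ w := fun σ => funext fun i => by
    apply Subtype.val_injective
    have h1 := congrFun (hv σ) i
    have h2 : (((B.rep σ *ᵥ w) i : ℤ_[p]) : ℚ_[p]) = (p : ℚ_[p]) ^ k *
        (((B.rep σ).map PadicInt.Coe.ringHom *ᵥ v) i) := by
      rw [show (((B.rep σ *ᵥ w) i : ℤ_[p]) : ℚ_[p]) =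
        ((B.rep σ).map PadicInt.Coe.ringHom *ᵥ fun j => ((w j : ℤ_[p]) : ℚ_[p])) i from
        RingHom.map_mulVec (PadicInt.Coe.ringHom (p := p)) _ w i,
        show (fun j => ((w j : ℤ_[p]) : ℚ_[p])) = (p : ℚ_[p]) ^ k • v from funext fun j => hw j,
        Matrix.mulVec_smul, Pi.smul_apply, smul_eq_mul]
    rw [h2, Pi.add_apply, Pi.smul_apply, nsmul_eq_mul, PadicInt.coe_add, PadicInt.coe_mul, hw,
      PadicInt.coe_natCast, Nat.cast_pow, h1, Pi.sub_apply]
    ring
  set S : ℕ → Pts W := fun n => p ^ k • Q n - B.φ n w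
  have hS : ∀ n (σ : GQ), σ • S n = S n := fun n σ => by
    have hσ : σ • Q n = Q n + B.φ n (kummerVec B Q σ) :=
      eq_add_of_sub_eq' (kummerVec_spec hQ (h0 σ) n).symm
    show σ • (p ^ k • Q n - B.φ n w) = _
    rw [smul_sub, gal_smul_nsmul, hσ, nsmul_add, B.rep_spec, ← hc σ, map_add, map_nsmul]
    show _ = p ^ k • Q n - B.φ n w
    abel
  choose T hT using fun n => exists_up_eq W (hS n)
  have hTn : ∀ n, p ^ n • T n = p ^ k • R := fun n => by
    refine mapHom_injective (algebraMap ℚ Qb) rfl ?_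
    show up W (p ^ n • T n) = up W (p ^ k • R)
    rw [map_nsmul, map_nsmul, hT]
    show p ^ n • (p ^ k • Q n - B.φ n w) = _
    rw [nsmul_sub, B.nsmul_phi, sub_zero, smul_comm, hQ.pow_nsmul, hQ0]
  haveI := FA.MordellWeil.mordell (ratCurve W)
  have hli : LinearIndependent ℤ (fun _ : Unit => R) := by
    refine Fintype.linearIndependent_iff.2 fun g hg i => ?_
    by_contra hne
    refine hR (isOfFinAddOrder_iff_zsmul_eq_zero.2 ⟨g i, hne, ?_⟩)
    simpa using hg
  obtain ⟨c, hc0, hc⟩ := FA.SubgroupDetection.exists_dvd_mul_family (p := p) hli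
  obtain ⟨n, hn⟩ := pow_unbounded_of_one_lt (((p ^ k : ℕ) : ℤ) * c).natAbs hp.out.one_lt
  have hd := hc (fun _ => 1) ⟨(), fun h => hp.out.not_dvd_one
    (Int.natCast_dvd_natCast.1 (by simpa using h))⟩ n ((p ^ k : ℕ) : ℤ) (T n) (by
      rw [natCast_zsmul, natCast_zsmul, hTn]
      simp)
  refine absurd (Nat.le_of_dvd ?_ (Int.natCast_dvd.1 hd)) (not_le.2 hn)
  exact Int.natAbs_pos.2 (mul_ne_zero
    (Int.natCast_ne_zero.2 (pow_ne_zero _ hp.out.ne_zero)) hc0)

/-- **A point of infinite order gives a non-split extension, de Rham at `p`.** -/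
theorem exists_deRham_nonsplit (B : TateBasis p W) {R : (ratCurve W).toAffine.Point}
    (hR : ¬ IsOfFinAddOrder R) :
    ∃ (Q : ℕ → Pts W) (hQ : IsLocalSys p Q), Q 0 = up W R ∧
      IsDeRham (extRep (curveAtP B) (kummerClass B hQ)) ∧
      Continuous (fun σ : GQ => kummerVec B Q σ) ∧
      (∀ σ τ : GQ, kummerVec B Q (σ * τ) = kummerVec B Q σ + B.rep σ *ᵥ kummerVec B Q τ) ∧
      ¬ ∃ v : Fin 2 → ℚ_[p], ∀ σ : GQ, (fun i => ((kummerVec B Q σ i : ℤ_[p]) : ℚ_[p])) =
        (B.rep σ).map PadicInt.Coe.ringHom *ᵥ v - v := by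
  obtain ⟨Q, hQ, hQ0, h⟩ := exists_isDeRham_extRep_of_point B R
  have h0 : ∀ σ : GQ, σ • Q 0 = Q 0 := fun σ => by rw [hQ0]; exact smul_up W σ R
  exact ⟨Q, hQ, hQ0, h, continuous_kummerVec_global hQ.div h0,
    fun σ τ => kummerVec_mul hQ.div (h0 σ) (h0 τ),
    not_coboundary_of_infinite_order hR hQ.div hQ0⟩

/-- The equation `y² + y = x³ - x`. -/
abbrev curve37 : WeierstrassCurve ℤ := ⟨0, 0, 1, -1, 0⟩

instance isElliptic_curve37 : (ratCurve curve37).IsElliptic := by
  have e : ratCurve curve37 = FA.Curve37.curve := by ext <;> simp [ratCurve]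
  rw [e]
  infer_instance

/-- `37a1` has a point of infinite order. -/
theorem exists_infinite_order_37 :
    ∃ R : (ratCurve curve37).toAffine.Point, ¬ IsOfFinAddOrder R := by
  obtain ⟨e⟩ := FA.Summary.point_group_curve37
  have he : FA.Curve37.curve.map (RingHom.id ℚ) = ratCurve curve37 := by
    ext <;> simp [ratCurve]
  refine ⟨mapHom (RingHom.id ℚ) he (e.symm 1), fun h => ?_⟩
  obtain ⟨n, hn, hn0⟩ := isOfFinAddOrder_iff_nsmul_eq_zero.1 h
  rw [← map_nsmul, ← map_zero (mapHom (RingHom.id ℚ) he)] at hn0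
  have h1 := congrArg e (mapHom_injective (RingHom.id ℚ) he hn0)
  rw [map_nsmul, AddEquiv.apply_symm_apply, map_zero] at h1
  simp at h1
  omega

end FA.KDR
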