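import Fermat.Agent.KummerDeRham.Line
import Fermat.Agent.EveryDeRham.Poles

/-!
# Points at potentially ordinary reduction and at poles of `j`

The kernel of reduction of a good equation, respectively the component of the identity of a twist
with multiplicative reduction, is the proper subgroup of the line criterion.
-/

set_option autoImplicit false
set_option linter.unusedSectionVars false
set_option linter.style.haveILetI false

noncomputable section

open Matrix WeierstrassCurve FA.TateSen FA.BDR FA.Sen FA.PadicHodge FA.Frob FA.EC FA.Local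
  FA.RT.Tate FA.PadicChar FA.CurveDR FA.OrdDR FA.DRCoh FA.PotDR
open scoped WeierstrassCurve.Affine Classical

namespace FA.KDR

variable {p : ℕ} [hp : Fact p.Prime] {W : WeierstrassCurve ℤ} [(ratCurve W).IsElliptic]

local notation "Cp" => ℂ_[p]
local notation "G" => PadicAlgCl p ≃ₐ[ℚ_[p]] PadicAlgCl p
local notation "Qb" => AlgebraicClosure ℚ
local notation "GQ" => AlgebraicClosure ℚ ≃ₐ[ℚ] AlgebraicClosure ℚ

/-- The criterion with square one on inertia. -/
theorem periodMap_eq_zero_of_triangular {B : TateBasis p W} (hρ : IsDeRham (curveAtP B))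
    {Q : ℕ → Pts W} (hQ : IsLocalSys p Q) (C : (Matrix (Fin 2) (Fin 2) ℚ_[p])ˣ)
    {T : G → Matrix (Fin 2) (Fin 2) ℚ_[p]}
    (hT : ∀ τ, curveAtP B τ * (C : Matrix (Fin 2) (Fin 2) ℚ_[p]) =
      (C : Matrix (Fin 2) (Fin 2) ℚ_[p]) * T τ)
    (h10 : ∀ τ, T τ 1 0 = 0) {U : Subgroup G} (hU : IsOpen (U : Set G))
    (h11 : ∀ τ ∈ U, τ ∈ inertiaGal p → T τ 1 1 ^ 2 = 1) {E : AddSubgroup (Pts W)}
    (hE : ∃ z : Pts W, p • z = 0 ∧ z ∉ E)
    (hsub : ∀ τ ∈ U, τ ∈ inertiaGal p → ∀ z : Pts W, localGaloisToGlobal p τ • z - z ∈ E) :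
    periodMap hρ (kummerClass B hQ) = 0 := by
  have hTe : ∀ τ, T τ = (↑C⁻¹ : Matrix (Fin 2) (Fin 2) ℚ_[p]) * curveAtP B τ *
      (C : Matrix (Fin 2) (Fin 2) ℚ_[p]) := fun τ => by
    rw [mul_assoc, hT, Units.inv_mul_cancel_left]
  have hTc : Continuous T := by
    rw [funext hTe]
    exact (continuous_const.mul (isQpRep_curveAtP B).cont).mul continuous_const
  obtain ⟨N, -, hNo, hN⟩ := FA.Sen.exists_open_normal_subset
    (W := (fun τ => T τ 1 1) ⁻¹' {x | x ≠ -1})
    ((isOpen_ne.preimage (hTc.matrix_elem 1 1)).mem_nhds (by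
      show T 1 1 1 ≠ -1
      rw [hTe, (isQpRep_curveAtP B).map_one, mul_one, Units.inv_mul, Matrix.one_apply_eq]
      norm_num))
  obtain ⟨-, P, hP⟩ := FA.EDR.isDeRham_curveAtP_any B
  refine periodMap_eq_zero_of_line hρ hP hQ C hT h10 (U := U ⊓ N) (hU.inter hNo)
    (fun τ hτ hI => (sq_eq_one_iff.1 (h11 τ hτ.1 hI)).resolve_right (hN τ hτ.2)) hE
    fun τ hτ => hsub τ hτ.1

/-- **Potentially ordinary reduction.** -/
theorem periodMap_eq_zero_potOrdinary (h : PotOrdinary p W) {B : TateBasis p W}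
    (hρ : IsDeRham (curveAtP B)) {Q : ℕ → Pts W} (hQ : IsLocalSys p Q) :
    periodMap hρ (kummerClass B hQ) = 0 := by
  obtain ⟨C, η, y, hη, -, ⟨V₀, hV₀, hη0⟩, hC⟩ := exists_shape_of_potOrdinary h B
  obtain ⟨-, C₁, V, hgood, P₀, hP₀, hP₀E⟩ := h
  haveI := hgood.isElliptic
  haveI : ((ratCurve W)⁄Qb).IsElliptic :=
    inferInstanceAs ((ratCurve W).map (algebraMap ℚ Qb)).IsElliptic
  let eV : V.toAffine.Point ≃+ Pts W := vcEquiv C₁ hgood.eq.symm
  let E : AddSubgroup (Pts W) :=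
    { carrier := {R | E1 (padicPlace p).valuation V.toAffine (eV.symm R)}
      zero_mem' := by
        show E1 _ _ (eV.symm 0)
        rw [map_zero]; exact e1_zero
      add_mem' := fun {a b} ha hb => by
        show E1 _ _ (eV.symm (a + b))
        rw [map_add]; exact e1_add hgood.int ha hb
      neg_mem' := fun {a} ha => by
        show E1 _ _ (eV.symm (-a))
        rw [map_neg]; exact e1_neg.mpr ha }
  refine periodMap_eq_zero_of_triangular hρ hQ C hC (fun τ => by simp)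
    (U := V₀ ⊓ fixGal p (coeffSet C₁)) (hV₀.inter (isOpen_fixGal (by simp)))
    (fun τ hτ hI => by simp [hη0 τ hτ.1 hI]) (E := E)
    ⟨eV P₀, by rw [← map_nsmul, hP₀, map_zero], fun hmem => hP₀E ?_⟩ fun τ hτ hI z => ?_
  · have h1 : E1 (padicPlace p).valuation V.toAffine (eV.symm (eV P₀)) := hmem
    rwa [eV.symm_apply_apply] at h1
  · obtain ⟨Q', hQ', hE'⟩ := FA.PotentialGood.exists_map_eq_e1_sub (ratCurve W) hgood.eq
      hgood.int hgood.disc (loc_mem_inertia hI) (apply_of_mem_fixGal hτ.2 (by simp))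
      (apply_of_mem_fixGal hτ.2 (by simp)) (apply_of_mem_fixGal hτ.2 (by simp))
      (apply_of_mem_fixGal hτ.2 (by simp)) (eV.symm z)
    change eV Q' = localGaloisToGlobal p τ • eV (eV.symm z) at hQ'
    rw [eV.apply_symm_apply] at hQ'
    show E1 _ _ (eV.symm _)
    rwa [map_sub, ← hQ', eV.symm_apply_apply]

/-- Some point of order `p` lies outside the component of the identity. -/
theorem exists_not_mem_e0Sub {W' : WeierstrassCurve ℤ} [(ratCurve W').IsElliptic]
    {A : ValuationSubring Qb} {r : Qb} (N : NodeData W' p A r) :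
    ∃ z : Pts W', p • z = 0 ∧ z ∉ N.e0Sub := by
  by_cases h2 : p = 2
  · subst h2
    exact ⟨FA.EDR.nodeT N, FA.EDR.two_nsmul_nodeT N, FA.EDR.nodeT_not_mem N⟩
  by_contra hc
  push Not at hc
  have h1 := N.card_e0_torsion_le (p := p) h2
  rw [Nat.card_congr (Equiv.subtypeEquivRight fun x =>
      (and_iff_left_of_imp (hc x)).trans (mem_torsion_iff W').symm :
      {x : Pts W' // p • x = 0 ∧ x ∈ N.e0Sub} ≃
        Submodule.torsionBy ℤ ((ratCurve W')⁄Qb).Point (p : ℤ)),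
    natCard_torsion (ratCurve W') hp.out.ne_zero, sq] at h1
  have := hp.out.two_le
  nlinarith

/-- A triangular form at a place of multiplicative reduction, for every `p`. -/
theorem exists_triangular_sq {W' : WeierstrassCurve ℤ} [(ratCurve W').IsElliptic]
    (B' : TateBasis p W') (hm : MultAt W' p (padicPlace p)) :
    ∃ (C : (Matrix (Fin 2) (Fin 2) ℚ_[p])ˣ) (T : G → Matrix (Fin 2) (Fin 2) ℚ_[p]),
      (∀ τ, curveAtP B' τ * (C : Matrix (Fin 2) (Fin 2) ℚ_[p]) =
        (C : Matrix (Fin 2) (Fin 2) ℚ_[p]) * T τ) ∧ (∀ τ, T τ 1 0 = 0) ∧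
        ∀ τ ∈ inertiaGal p, T τ 1 1 ^ 2 = 1 := by
  by_cases h2 : p = 2
  · subst h2
    obtain ⟨C, T, hT, h10, h11⟩ := FA.EDR.exists_triangular_local_two B' hm
    exact ⟨C, T, hT, h10, fun τ hτ => by rw [h11 τ hτ, one_pow]⟩
  · obtain ⟨C, η, y, -, -, hsq, hC⟩ := CurveDR.exists_shape B' h2 hm
    exact ⟨C, _, hC, fun τ => by simp, fun τ _ => by simp [hsq τ]⟩

/-- **Poles of `j`.** -/
theorem periodMap_eq_zero_pole (hj : padicValRat p (ratCurve W).j < 0) {B : TateBasis p W}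
    (hρ : IsDeRham (curveAtP B)) {Q : ℕ → Pts W} (hQ : IsLocalSys p Q) :
    periodMap hρ (kummerClass B hQ) = 0 := by
  obtain ⟨d, hd, W', hW', hdvd, hc⟩ :=
    FA.OggShafarevich.exists_multiplicative_twist (ratCurve W) hj
  haveI := FA.Root.quadTwist_isElliptic (ratCurve W) hd
  have hΔ := FA.Frob.Δ_ne_zero_of_model hW'
  haveI := FA.Frob.ratCurve_isElliptic_of_Δ hΔ
  obtain ⟨e₁, he₁⟩ := FA.Root.exists_equiv_of_model hW'
  obtain ⟨s, t, hs, ht⟩ := FA.Root.exists_twist_equiv_sqrt (ratCurve W) hd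
  have hsign : ∀ σ : GQ, σ s = s ∨ σ s = -s := fun σ =>
    sq_eq_sq_iff_eq_or_eq_neg.1 (by rw [← map_pow, hs, AlgEquiv.commutes])
  let e : Pts W' ≃+ Pts W := e₁.trans t
  have hfix : ∀ σ : GQ, σ s = s → ∀ z, σ • e z = e (σ • z) := fun σ hσ z =>
    ((ht σ (e₁ z)).1 hσ).trans (congrArg t (he₁ σ z).symm)
  obtain ⟨B'⟩ := exists_tateBasis (p := p) W'
  obtain ⟨M, hM⟩ := exists_twist_matrix B B' e hsign fun σ z =>
    ⟨fun h => hfix σ h z,
      fun h => ((ht σ (e₁ z)).2 h).trans (congrArg (fun R => -t R) (he₁ σ z).symm)⟩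
  have hm := multAt_padicPlace (W := W') hΔ hdvd hc
  obtain ⟨C', T', hT', h10, h11⟩ := exists_triangular_sq B' hm
  obtain ⟨r, N⟩ := exists_nodeData hm
  obtain ⟨z₀, hz₀, hz₀E⟩ := exists_not_mem_e0Sub N
  choose ε hε he using hM
  refine periodMap_eq_zero_of_triangular hρ hQ (M * C') (T := fun τ => ε τ • T' τ) (fun τ => ?_)
    (fun τ => by simp [h10]) (U := fixGal p {s}) (isOpen_fixGal (Set.finite_singleton s))
    (fun τ _ hI => by simp [mul_pow, hε, h11 τ hI])
    (E := N.e0Sub.map e.toAddMonoidHom)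
    ⟨e z₀, by rw [← map_nsmul, hz₀, map_zero], fun h => ?_⟩ fun τ hτ hI z => ?_
  · rw [Units.val_mul, ← mul_assoc, he τ, mul_assoc (M : Matrix (Fin 2) (Fin 2) ℚ_[p]),
      smul_mul_assoc, hT']
    simp only [mul_smul_comm, mul_assoc]
  · obtain ⟨z, hz, hze⟩ := h
    exact hz₀E (e.injective hze ▸ hz)
  · refine ⟨_, N.smul_sub_mem_e0Sub (loc_mem_inertia hI) (e.symm z), ?_⟩
    show e (_ - _) = _
    rw [map_sub, ← hfix _ (apply_of_mem_fixGal hτ rfl), e.apply_symm_apply]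

end FA.KDR
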