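import Fermat.Agent.SupersingularDeRham.Periods
import Fermat.Agent.SupersingularDeRham.Values

/-!
# The sum behind the period of the second kind for any system

For a system in `A_inf` with any value at level zero the sum `Σ p ^ n h (z_{n + 1})` is additive
up to `e (z₀, z'₀)`, and `e` vanishes when an argument does.
-/

set_option autoImplicit false
set_option linter.unusedSectionVars false

noncomputable section

open Ideal Finset FA.TateSen FA.BDR FA.BDRCoh FA.PadicHodge FA.RT.Tate FA.SSDR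

namespace FA.KDR

attribute [local irreducible] fgAdd wSeries mulN logS hSer eSer

variable {p : ℕ} [hp : Fact p.Prime] {W : WeierstrassCurve ℤ}

local notation "G" => PadicAlgCl p ≃ₐ[ℚ_[p]] PadicAlgCl p

/-- The values of `h` along a system. -/
def hVals {z : ℕ → AInf p} (hz : IsLiftSys W z) (n : ℕ) : AInf p :=
  evA (fun _ : Unit => z (n + 1)) (fun _ => hz.rad (n + 1)) (hSer (wZp p W))

/-- The values of `e` along two systems. -/
def eVals {z z' : ℕ → AInf p} (hz : IsLiftSys W z) (hz' : IsLiftSys W z') (n : ℕ) : AInf p :=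
  evA ![z n, z' n] (pair_radical (hz.rad n) (hz'.rad n)) (eSer (wZp p W))

/-- `S` is the sum `Σ p ^ n h (z_{n + 1})`. -/
def IsHSum {z : ℕ → AInf p} (hz : IsLiftSys W z) (S : AInf p) : Prop :=
  ∀ N, S - ∑ n ∈ range N, (p : AInf p) ^ n * hVals hz n ∈ defIdeal p ^ N

theorem exists_hSum {z : ℕ → AInf p} (hz : IsLiftSys W z) : ∃ S, IsHSum hz S := by
  obtain ⟨S, hS⟩ := IsPrecomplete.prec (inferInstance : IsPrecomplete (defIdeal p) (AInf p))
    (f := fun N => ∑ n ∈ range N, (p : AInf p) ^ n * hVals hz n) fun {m n} hmn => by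
      rw [SModEq.sub_mem, smul_eq_mul, Ideal.mul_top]
      induction n, hmn using Nat.le_induction with
      | base => rw [sub_self]; exact zero_mem _
      | succ n hmn ih =>
        rw [sum_range_succ, ← sub_sub]
        exact sub_mem ih (Ideal.mul_mem_right _ _ (Ideal.pow_le_pow_right hmn p_pow_mem))
  refine ⟨S, fun N => ?_⟩
  have h := hS N
  rw [SModEq.sub_mem, smul_eq_mul, Ideal.mul_top] at h
  rw [← neg_sub]
  exact neg_mem h

theorem IsHSum.unique {z z' : ℕ → AInf p} (e : z = z') {hz : IsLiftSys W z}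
    {hz' : IsLiftSys W z'} {S S' : AInf p} (h : IsHSum hz S) (h' : IsHSum hz' S') : S = S' := by
  subst e
  refine (IsHausdorff.eq_iff_smodEq (I := defIdeal p)).2 fun N => ?_
  rw [SModEq.sub_mem, smul_eq_mul, Ideal.mul_top,
    ← sub_sub_sub_cancel_right S S' (∑ n ∈ range N, (p : AInf p) ^ n * hVals hz n)]
  exact sub_mem (h N) (h' N)

theorem hVals_add (hΔ : W.Δ ≠ 0) {z z' : ℕ → AInf p} (hz : IsLiftSys W z) (hz' : IsLiftSys W z')
    (n : ℕ) :
    hVals (hz.addA W hΔ hz') n - hVals hz n - hVals hz' n =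
      (p : AInf p) * eVals hz hz' (n + 1) - eVals hz hz' n := by
  have hr := pair_radical (hz.rad (n + 1)) (hz'.rad (n + 1))
  have h := congrArg (evA ![z (n + 1), z' (n + 1)] hr)
    (hSer_fgAdd (wZp p W) (wZp_Δ_ne_zero hΔ))
  rw [map_sub, map_sub, map_sub, map_mul, map_natCast,
    evA_comp1 hr _ ((hz.addA W hΔ hz').rad (n + 1)) rfl,
    evA_comp1 hr _ (hz.rad (n + 1)) (evz_X _ _ _ 0),
    evA_comp1 hr _ (hz'.rad (n + 1)) (evz_X _ _ _ 1)] at h
  refine h.trans (congrArg (fun x => (p : AInf p) * eVals hz hz' (n + 1) - x) ?_)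
  refine evz_subHom _ _ hr _ (y := ![z n, z' n]) (Fin.forall_fin_two.2 ⟨?_, ?_⟩) (eSer (wZp p W))
  · exact ((evA_comp1 hr _ (hz.rad (n + 1)) (evz_X _ _ _ 0) _).trans (hz.compat n)).symm
  · exact ((evA_comp1 hr _ (hz'.rad (n + 1)) (evz_X _ _ _ 1) _).trans (hz'.compat n)).symm

/-- **Additivity up to `e`.** -/
theorem IsHSum.add (hΔ : W.Δ ≠ 0) {z z' z'' : ℕ → AInf p} {hz : IsLiftSys W z}
    {hz' : IsLiftSys W z'} {hz'' : IsLiftSys W z''}
    (e : ∀ n, z'' n = FA.SSDR.addA W (hz.rad n) (hz'.rad n)) {S S' S'' : AInf p}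
    (h : IsHSum hz S) (h' : IsHSum hz' S') (h'' : IsHSum hz'' S'') :
    S'' = S + S' - eVals hz hz' 0 := by
  obtain rfl : z'' = fun n => FA.SSDR.addA W (hz.rad n) (hz'.rad n) := funext e
  have hsum : ∀ N, ∑ n ∈ range N, (p : AInf p) ^ n * hVals hz'' n -
      ∑ n ∈ range N, (p : AInf p) ^ n * hVals hz n -
        ∑ n ∈ range N, (p : AInf p) ^ n * hVals hz' n =
      (p : AInf p) ^ N * eVals hz hz' N - eVals hz hz' 0 := fun N => by
    induction N with
    | zero => simp
    | succ N ih =>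
      rw [sum_range_succ, sum_range_succ, sum_range_succ, pow_succ]
      linear_combination ih + (p : AInf p) ^ N * hVals_add hΔ hz hz' N
  refine (IsHausdorff.eq_iff_smodEq (I := defIdeal p)).2 fun N => ?_
  rw [SModEq.sub_mem, smul_eq_mul, Ideal.mul_top]
  have e' : S'' - (S + S' - eVals hz hz' 0) =
      (S'' - ∑ n ∈ range N, (p : AInf p) ^ n * hVals hz'' n) -
        (S - ∑ n ∈ range N, (p : AInf p) ^ n * hVals hz n) -
        (S' - ∑ n ∈ range N, (p : AInf p) ^ n * hVals hz' n) +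
        (p : AInf p) ^ N * eVals hz hz' N := by linear_combination hsum N
  rw [e']
  exact add_mem (sub_mem (sub_mem (h'' N) (h N)) (h' N)) (Ideal.mul_mem_right _ _ p_pow_mem)

/-- Conjugation. -/
theorem IsHSum.gal (g : G) {z : ℕ → AInf p} {hz : IsLiftSys W z} {S : AInf p} (h : IsHSum hz S) :
    IsHSum (hz.gal W g) (ainfGal g S) := fun N => by
  have e : ∀ n, hVals (hz.gal W g) n = ainfGal g (hVals hz n) := fun n =>
    (map_evz (defIdeal p) (zpHom p) _ (defIdeal p) (ainfGal g) (ainfGal_zpHom g)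
      (fun _ => rfl) _ _).symm
  have e' : ∑ n ∈ range N, (p : AInf p) ^ n * hVals (hz.gal W g) n =
      ainfGal g (∑ n ∈ range N, (p : AInf p) ^ n * hVals hz n) := by
    simp only [e, map_sum, map_mul, map_pow, map_natCast]
  rw [e', ← map_sub]
  exact ainfGal_defIdeal_pow g (h N)

/-- **`e (X, 0) = 0`.** -/
theorem eSer_axis (W : WeierstrassCurve ℤ_[p]) (hΔ : W.Δ ≠ 0) :
    subHom (constantCoeff_axis (R := ℤ_[p])) (eSer W) = 0 := by
  have hX : MvPowerSeries.constantCoeff (PowerSeries.X : PowerSeries ℤ_[p]) = 0 :=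
    MvPowerSeries.constantCoeff_X ()
  have hz : MvPowerSeries.constantCoeff (0 : MvPowerSeries Unit ℤ_[p]) = 0 := map_zero _
  have hk : ∀ i, mapQ ((![PowerSeries.X, 0] : Fin 2 → MvPowerSeries Unit ℤ_[p]) i) =
      (![PowerSeries.X, 0] : Fin 2 → MvPowerSeries Unit ℚ_[p]) i :=
    Fin.forall_fin_two.2 ⟨MvPowerSeries.map_X _ _, map_zero _⟩
  have hF : subHom (constantCoeff_axis (R := ℤ_[p])) (fgAdd W) = PowerSeries.X :=
    fAdd_zero W hΔ hX
  have h := congrArg (subHom (constantCoeff_axis (R := ℚ_[p]))) (eSer_spec W hΔ)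
  rw [map_sub, map_sub, MvPowerSeries.smul_eq_C_mul, map_mul, subHom_C,
    ← MvPowerSeries.smul_eq_C_mul,
    comp1_logS_pow W constantCoeff_axis _ hk (constantCoeff_fgAdd W) hX hF,
    comp1_logS_pow W constantCoeff_axis _ hk (MvPowerSeries.constantCoeff_X 0) hX (subHom_X _ 0),
    comp1_logS_pow W constantCoeff_axis _ hk (MvPowerSeries.constantCoeff_X 1) hz (subHom_X _ 1),
    ← map_subHom (coeQ p) constantCoeff_axis hk] at h
  have h0 : comp1 (constantCoeff_mapQ (constantCoeff_pow_p hz)) (logS W) = 0 := by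
    rw [comp1_congr _ (show mapQ ((0 : MvPowerSeries Unit ℤ_[p]) ^ p) = 0 by
      rw [zero_pow hp.out.ne_zero, map_zero]), comp1_apply]
    exact MvPowerSeries.subst_zero_of_constantCoeff_zero (constantCoeff_logS W)
  rw [h0, sub_self, sub_zero] at h
  exact (pSmul_injective (by rw [← h, map_zero, smul_zero])).symm

/-- `e` vanishes after `θ` when the second system starts at zero. -/
theorem theta_eVals_zero (hΔ : W.Δ ≠ 0) {z z' : ℕ → AInf p} (hz : IsLiftSys W z)
    (hz' : IsLiftSys W z') (h0 : theta p (z' 0) = 0) : theta p (eVals hz hz' 0) = 0 := by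
  have ht := theta_radical (hz.rad 0)
  set e := evO (fun _ : Unit => theta p (z 0)) fun _ => ht
  have h1 := congrArg e (eSer_axis (wZp p W) (wZp_Δ_ne_zero hΔ))
  rw [map_zero] at h1
  rw [eVals, theta_evA, ← h1]
  refine (evz_subHom (span {(p : OC p)}) (zpO p) (fun _ : Unit => ht) _
    (Fin.forall_fin_two.2 ⟨?_, ?_⟩) _).symm
  · show theta p (z 0) = e PowerSeries.X
    rw [PowerSeries.X, evz_X]
  · show theta p (z' 0) = e 0
    rw [h0, map_zero]

end FA.KDR
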