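import Fermat.Agent.EveryDeRham.Supersingular
import Fermat.Agent.KummerDeRham.PeriodSum

/-!
# The additive period of a system of a point on a congruent supersingular equation

Either the logarithm of the torsion systems has nonzero image under `θ`, and that of the system
of the point is the additive period, or shifted systems have periods of the second kind and the
sum `p Σ p ^ n h` along the shifted system of the point takes that part.
-/

set_option autoImplicit false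
set_option linter.unusedSectionVars false
set_option linter.style.haveILetI false

noncomputable section

open Ideal Matrix WeierstrassCurve FA.TateSen FA.BDR FA.BDRCoh FA.Sen FA.PadicHodge FA.Frob FA.EC
  FA.Local FA.RT.Tate FA.CurveDR FA.OrdDR FA.PotDR FA.SSDR FA.EDR
open scoped WeierstrassCurve.Affine Classical

namespace FA.KDR

attribute [local irreducible] fgAdd wSeries mulN logS hSer eSer

variable {p : ℕ} [hp : Fact p.Prime]

local notation "Cp" => ℂ_[p]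
local notation "G" => PadicAlgCl p ≃ₐ[ℚ_[p]] PadicAlgCl p

theorem IsHSum.congr {W : WeierstrassCurve ℤ} {z z' : ℕ → AInf p} (e : z = z')
    {hz : IsLiftSys W z} {hz' : IsLiftSys W z'} {S : AInf p} (h : IsHSum hz S) : IsHSum hz' S := by
  subst e
  exact h

/-- The image of the period of the second kind. -/
theorem thetaPlus_perTwo {W : WeierstrassCurve ℤ} [(ratCurve W).IsElliptic]
    (hs : IsSupersingularAt p W) (B : TateBasis p W) (v : Fin 2 → ℤ_[p]) :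
    thetaPlus p (perTwo hs B v) = (p : Cp) * ((theta p (limSum hs B v) : OC p) : Cp) := by
  rw [perTwo, map_add, show thetaPlus p (logPow hs B v) = 0 from
    thetaPlus_evB _ (constantCoeff_logS _), zero_add, map_mul, map_natCast, thetaPlus_aInfB]

/-- A linear form with values in `B_dR⁺` gives a row after `θ`. -/
theorem row_of_form {F : (Fin 2 → ℤ_[p]) → BPlus p} (hFa : ∀ v w, F (v + w) = F v + F w)
    (hFs : ∀ (a : ℤ_[p]) v, F (a • v) = qpHom p (a : ℚ_[p]) * F v) (v : Fin 2 → ℤ_[p]) :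
    thetaPlus p (F v) =
      thetaPlus p (F (Pi.single 0 1)) * algebraMap ℚ_[p] Cp (v 0 : ℚ_[p]) +
        thetaPlus p (F (Pi.single 1 1)) * algebraMap ℚ_[p] Cp (v 1 : ℚ_[p]) := by
  rw [eq_sum_single hFa hFs v, map_sum, Fin.sum_univ_two, map_mul, map_mul, thetaPlus_qpHom,
    thetaPlus_qpHom, mul_comm, mul_comm (algebraMap ℚ_[p] Cp (v 1 : ℚ_[p]))]

/-- A nonzero equivariant form and an additive period give the row. -/
theorem row_point_of_form {U : Subgroup G} {R : G → Matrix (Fin 2) (Fin 2) ℤ_[p]}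
    {c : G → Fin 2 → ℤ_[p]} {F : (Fin 2 → ℤ_[p]) → BPlus p}
    (hFa : ∀ v w, F (v + w) = F v + F w)
    (hFs : ∀ (a : ℤ_[p]) v, F (a • v) = qpHom p (a : ℚ_[p]) * F v)
    (hFg : ∀ σ ∈ U, ∀ v, σ • F v = F (R σ *ᵥ v)) (hF0 : ∃ v, thetaPlus p (F v) ≠ 0) (b : Cp)
    (hb : ∀ σ ∈ U, gal σ b = thetaPlus p (F (c σ)) + b) :
    ∃ (l : Fin 2 → Cp) (b : Cp), (∃ j, l j ≠ 0) ∧ ∀ σ ∈ U,
      (∀ k, gal σ (l k) = l 0 * algebraMap ℚ_[p] Cp (R σ 0 k : ℚ_[p]) +
        l 1 * algebraMap ℚ_[p] Cp (R σ 1 k : ℚ_[p])) ∧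
      gal σ b = l 0 * algebraMap ℚ_[p] Cp (c σ 0 : ℚ_[p]) +
        l 1 * algebraMap ℚ_[p] Cp (c σ 1 : ℚ_[p]) + b := by
  refine ⟨fun k => thetaPlus p (F (Pi.single k 1)), b, ?_, fun σ hσ => ⟨fun k => ?_, ?_⟩⟩
  · obtain ⟨v, hv⟩ := hF0
    by_contra hc'
    push Not at hc'
    exact hv (by rw [row_of_form hFa hFs v, hc', hc', zero_mul, zero_mul, add_zero])
  · have e : gal σ (thetaPlus p (F (Pi.single k 1))) = thetaPlus p (σ • F (Pi.single k 1)) := by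
      rw [smul_bplus_def, thetaPlus_bplusGal]
    rw [e, hFg σ hσ, row_of_form hFa hFs, Matrix.mulVec_single_one]
    rfl
  · rw [hb σ hσ, row_of_form hFa hFs]

/-- The logarithms of the systems of the torsion and of the point. -/
theorem exists_logs {W₀ : WeierstrassCurve ℤ} {π : OC p} {V : WeierstrassCurve (OC p)}
    (h : IsNear π W₀ V) {N : ℕ} (hN : nearI π ^ N ≤ defIdeal p)
    {z : (Fin 2 → ℤ_[p]) → ℕ → AInf p} (hz : ∀ v, IsLiftSys W₀ (z v))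
    (hz0 : ∀ v, z v 0 ∈ nearI π)
    (hadd : ∀ v v' n, z (v + v') n = FA.SSDR.addA W₀ ((hz v).rad n) ((hz v').rad n))
    {U : Subgroup G} {R : G → Matrix (Fin 2) (Fin 2) ℤ_[p]}
    (hgal : ∀ σ ∈ U, ∀ v n, ainfGal σ (z v n) = z (R σ *ᵥ v) n)
    {zQ : ℕ → AInf p} (hzQ : IsLiftSys W₀ zQ) (hzQ0 : zQ 0 ∈ nearI π) {c : G → Fin 2 → ℤ_[p]}
    (hQgal : ∀ σ ∈ U, ∀ n,
      ainfGal σ (zQ n) = FA.SSDR.addA W₀ (hzQ.rad n) ((hz (c σ)).rad n)) :
    ∃ (L : (Fin 2 → ℤ_[p]) → BPlus p) (LQ : BPlus p), (∀ v v', L (v + v') = L v + L v') ∧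
      (∀ (r : ℤ_[p]) v, L (r • v) = qpHom p (r : ℚ_[p]) * L v) ∧
      (∀ σ ∈ U, ∀ v, σ • L v = L (R σ *ᵥ v)) ∧ (∀ σ ∈ U, σ • LQ = LQ + L (c σ)) ∧
      ∀ v, thetaPlus p (L v) = 0 →
        theta p (itA W₀ ⟨z v 0, (hz v).rad 0⟩ (N + 1) : AInf p) = 0 := by
  set a : (Fin 2 → ℤ_[p]) → {a : AInf p // a ∈ (defIdeal p).radical} := fun v =>
    ⟨z v 0, (hz v).rad 0⟩
  set aQ : {a : AInf p // a ∈ (defIdeal p).radical} := ⟨zQ 0, hzQ.rad 0⟩
  have hseq : ∀ x : {a : AInf p // a ∈ (defIdeal p).radical}, (x : AInf p) ∈ nearI π →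
      IsLogSeq W₀ fun m => (itA W₀ x (N + m) : AInf p) := fun x hx =>
    isLogSeq_itA h.Δ_ne _ (hN (Ideal.pow_le_pow_right N.le_succ (itA_mem h x hx N)))
  choose L hL using fun v => (hseq (a v) (hz0 v)).exists_lim
  obtain ⟨LQ, hLQ⟩ := (hseq aQ hzQ0).exists_lim
  have hLa : ∀ v v', L (v + v') = L v + L v' := fun v v' => by
    refine IsLogLim.add (hseq (a v) (hz0 v)) (hseq (a v') (hz0 v')) (hL v) (hL v') ?_
    have e : (fun m => FA.SSDR.addA W₀ ((hseq (a v) (hz0 v)).rad m)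
        ((hseq (a v') (hz0 v')).rad m)) =
        fun m => (itA W₀ (a (v + v')) (N + m) : AInf p) := funext fun m =>
      (itA_addA h.Δ_ne (a v) (a v') (N + m)).symm.trans
        (congrArg Subtype.val (itA_congr (hadd v v' 0).symm _))
    rw [e]
    exact hL _
  have hLs : ∀ (r : ℤ_[p]) v, L (r • v) = qpHom p (r : ℚ_[p]) * L v := fun r v =>
    smul_of_bdd (AddMonoidHom.mk' L hLa) (fun n => ⟨n, fun v => (hL v).bdd n⟩) r v
  have hLg : ∀ σ ∈ U, ∀ v, σ • L v = L (R σ *ᵥ v) := fun σ hσ v => by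
    refine IsLogLim.unique ((hL v).gal σ) ?_
    have e : (fun m => ainfGal σ (itA W₀ (a v) (N + m) : AInf p)) =
        fun m => (itA W₀ (a (R σ *ᵥ v)) (N + m) : AInf p) := funext fun m => by
      rw [ainfGal_itA]
      exact congrArg Subtype.val (itA_congr (hgal σ hσ v 0) _)
    rw [e]
    exact hL _
  have hLQg : ∀ σ ∈ U, σ • LQ = LQ + L (c σ) := fun σ hσ => by
    refine IsLogLim.add (hseq aQ hzQ0) (hseq (a (c σ)) (hz0 (c σ))) hLQ (hL (c σ)) ?_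
    have e : (fun m => FA.SSDR.addA W₀ ((hseq aQ hzQ0).rad m)
        ((hseq (a (c σ)) (hz0 (c σ))).rad m)) =
        fun m => ainfGal σ (itA W₀ aQ (N + m) : AInf p) := funext fun m => by
      rw [ainfGal_itA]
      exact (itA_addA h.Δ_ne aQ (a (c σ)) (N + m)).symm.trans
        (congrArg Subtype.val (itA_congr (hQgal σ hσ 0).symm _))
    rw [e]
    exact hLQ.gal σ
  exact ⟨L, LQ, hLa, hLs, hLg, hLQg, fun v hv => (hseq (a v) (hz0 v)).theta_one_eq_zero (hL v) hv⟩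

/-- When the logarithms vanish under `θ`, the periods of the second kind. -/
theorem exists_periods {W₀ : WeierstrassCurve ℤ} {π : OC p} {V : WeierstrassCurve (OC p)}
    (h : IsNear π W₀ V) (hs : IsSupersingularAt p W₀) [(ratCurve W₀).IsElliptic] {M : ℕ}
    {z : (Fin 2 → ℤ_[p]) → ℕ → AInf p} (hz : ∀ v, IsLiftSys W₀ (z v))
    (hadd : ∀ v v' n, z (v + v') n = FA.SSDR.addA W₀ ((hz v).rad n) ((hz v').rad n))
    (hne : ∃ v, z v ≠ 0) {U : Subgroup G} {R : G → Matrix (Fin 2) (Fin 2) ℤ_[p]}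
    (hgal : ∀ σ ∈ U, ∀ v n, ainfGal σ (z v n) = z (R σ *ᵥ v) n)
    (hu0 : ∀ v, theta p (shiftSys (hz v) M 0 : AInf p) = 0)
    {zQ : ℕ → AInf p} (hzQ : IsLiftSys W₀ zQ) {c : G → Fin 2 → ℤ_[p]}
    (hQgal : ∀ σ ∈ U, ∀ n,
      ainfGal σ (zQ n) = FA.SSDR.addA W₀ (hzQ.rad n) ((hz (c σ)).rad n)) :
    ∃ (F : (Fin 2 → ℤ_[p]) → BPlus p) (b : Cp), (∀ v v', F (v + v') = F v + F v') ∧
      (∀ (r : ℤ_[p]) v, F (r • v) = qpHom p (r : ℚ_[p]) * F v) ∧
      (∀ σ ∈ U, ∀ v, σ • F v = F (R σ *ᵥ v)) ∧ (∃ v, thetaPlus p (F v) ≠ 0) ∧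
      ∀ σ ∈ U, gal σ b = thetaPlus p (F (c σ)) + b := by
  obtain ⟨B₀⟩ := exists_tateBasis (p := p) W₀
  have hu := fun v => isLiftSys_shiftSys (hz v) M
  choose ι hι using fun v => exists_vec_of_liftSys hs B₀ (hu v) (hu0 v)
  have hzu : ∀ v, (fun n => (shiftSys (hz v) M n : AInf p)) = zeta hs B₀ (ι v) := fun v =>
    (hu v).ext W₀ h.Δ_ne (isLiftSys_zeta hs B₀ _) fun n => by rw [hι, theta_zeta]
  have hιadd : ∀ v v', ι (v + v') = ι v + ι v' := fun v v' => tPar_ext hs B₀ fun n => by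
    rw [← hι, shiftSys_addA h.Δ_ne (hz v) (hz v') (hz _) (hadd v v'), FA.SSDR.addA, theta_evA,
      ← tPar_add hs B₀ (ι v) (ι v') n]
    exact evz_congr _ _ _ (funext (Fin.forall_fin_two.2 ⟨hι v n, hι v' n⟩)) _
  have hιgal : ∀ σ ∈ U, ∀ v, ι (R σ *ᵥ v) = B₀.rep (localGaloisToGlobal p σ) *ᵥ ι v :=
    fun σ hσ v => tPar_ext hs B₀ fun n => by
      have e : ainfGal σ (shiftSys (hz v) M n : AInf p) =
          (shiftSys (hz (R σ *ᵥ v)) M n : AInf p) :=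
        (ainfGal_itA σ _ _).trans (congrArg Subtype.val (itA_congr (hgal σ hσ v (n - M)) _))
      rw [← hι, ← e, congrFun (hzu v) n, ainfGal_zeta, theta_zeta]
  set φ : (Fin 2 → ℤ_[p]) →+ (Fin 2 → ℤ_[p]) := AddMonoidHom.mk' ι hιadd
  set F : (Fin 2 → ℤ_[p]) → BPlus p := fun v => perTwo hs B₀ (ι v) with hF
  have hFa : ∀ v v', F (v + v') = F v + F v' := fun v v' => by
    simp only [hF, hιadd, perTwo_add]
  have hFs : ∀ (r : ℤ_[p]) v, F (r • v) = qpHom p (r : ℚ_[p]) * F v := fun r v => by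
    show perTwo hs B₀ (φ (r • v)) = _
    rw [map_smul_of_add, perTwo_smul]
    rfl
  have hFg : ∀ σ ∈ U, ∀ v, σ • F v = F (R σ *ᵥ v) := fun σ hσ v => by
    simp only [hF, smul_perTwo, hιgal σ hσ]
  have huQ := isLiftSys_shiftSys hzQ M
  obtain ⟨SQ, hSQ⟩ := exists_hSum huQ
  refine ⟨F, (p : Cp) * ((theta p SQ : OC p) : Cp), hFa, hFs, hFg, ?_, fun σ hσ => ?_⟩
  · obtain ⟨v, hv⟩ := hne
    have hιv : ι v ≠ 0 := fun h0 => hv (funext fun n => by
      rw [← coe_shiftSys_add (hz v) M n, congrFun (hzu v), h0, zeta_zero]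
      rfl)
    obtain ⟨k, w, hw, hwne⟩ := exists_primitive B₀ hιv
    have hvF : thetaPlus p (F v) ≠ 0 := by
      show thetaPlus p (perTwo hs B₀ (ι v)) ≠ 0
      rw [hw, perTwo_smul, map_mul, thetaPlus_qpHom]
      exact mul_ne_zero ((map_ne_zero (algebraMap ℚ_[p] Cp)).2
        (by simpa using pow_ne_zero k (Nat.cast_ne_zero.2 hp.out.ne_zero : (p : ℚ_[p]) ≠ 0)))
        (thetaPlus_perTwo_ne_zero hs B₀ hwne)
    exact ⟨v, hvF⟩
  · have hzs := hzQ.addA W₀ h.Δ_ne (hz (c σ))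
    have e1 : (fun n => ainfGal σ (shiftSys hzQ M n : AInf p)) =
        fun n => FA.SSDR.addA W₀ (huQ.rad n) ((hu (c σ)).rad n) := funext fun n => by
      refine (ainfGal_itA σ _ _).trans ?_
      exact (congrArg Subtype.val (itA_congr (b := ⟨_, hzs.rad (n - M)⟩) (hQgal σ hσ (n - M))
        (M - n))).trans
        (shiftSys_addA h.Δ_ne hzQ (hz (c σ)) hzs (fun _ => rfl) M n)
    have hS' : IsHSum (hu (c σ)) (limSum hs B₀ (ι (c σ))) :=
      IsHSum.congr (hzu (c σ)).symm (hz := isLiftSys_zeta hs B₀ (ι (c σ)))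
        (fun K => limSum_spec hs B₀ (ι (c σ)) K)
    have key := IsHSum.add h.Δ_ne (hz'' := huQ.gal W₀ σ) (fun n => congrFun e1 n) hSQ hS'
      (hSQ.gal σ)
    have key' := congrArg (theta p) key
    rw [theta_ainfGal, map_sub, map_add, theta_eVals_zero h.Δ_ne huQ (hu (c σ)) (hu0 (c σ)),
      sub_zero] at key'
    have key'' := congrArg (fun x : OC p => (x : Cp)) key'
    simp only [coe_galO, AddMemClass.coe_add] at key''
    rw [map_mul, map_natCast, key'', mul_add, ← thetaPlus_perTwo hs B₀ (ι (c σ))]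
    exact add_comm _ _

/-- **The row and the additive period.** -/
theorem exists_row_point {W₀ : WeierstrassCurve ℤ} {π : OC p} {V : WeierstrassCurve (OC p)}
    (h : IsNear π W₀ V) (hs : IsSupersingularAt p W₀) [(ratCurve W₀).IsElliptic]
    {z : (Fin 2 → ℤ_[p]) → ℕ → AInf p} (hz : ∀ v, IsLiftSys W₀ (z v))
    (hz0 : ∀ v, z v 0 ∈ nearI π)
    (hadd : ∀ v v' n, z (v + v') n = FA.SSDR.addA W₀ ((hz v).rad n) ((hz v').rad n))
    (hne : ∃ v, z v ≠ 0) {U : Subgroup G} {R : G → Matrix (Fin 2) (Fin 2) ℤ_[p]}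
    (hgal : ∀ σ ∈ U, ∀ v n, ainfGal σ (z v n) = z (R σ *ᵥ v) n)
    {zQ : ℕ → AInf p} (hzQ : IsLiftSys W₀ zQ) (hzQ0 : zQ 0 ∈ nearI π) {c : G → Fin 2 → ℤ_[p]}
    (hQgal : ∀ σ ∈ U, ∀ n,
      ainfGal σ (zQ n) = FA.SSDR.addA W₀ (hzQ.rad n) ((hz (c σ)).rad n)) :
    ∃ (l : Fin 2 → Cp) (b : Cp), (∃ j, l j ≠ 0) ∧ ∀ σ ∈ U,
      (∀ k, gal σ (l k) = l 0 * algebraMap ℚ_[p] Cp (R σ 0 k : ℚ_[p]) +
        l 1 * algebraMap ℚ_[p] Cp (R σ 1 k : ℚ_[p])) ∧
      gal σ b = l 0 * algebraMap ℚ_[p] Cp (c σ 0 : ℚ_[p]) +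
        l 1 * algebraMap ℚ_[p] Cp (c σ 1 : ℚ_[p]) + b := by
  obtain ⟨N, -, hN⟩ := exists_nearI_pow_le h
  obtain ⟨L, LQ, hLa, hLs, hLg, hLQg, hvan⟩ :=
    exists_logs h hN hz hz0 hadd hgal hzQ hzQ0 hQgal
  by_cases hcase : ∃ v, thetaPlus p (L v) ≠ 0
  · refine row_point_of_form hLa hLs hLg hcase (thetaPlus p LQ) fun σ hσ => ?_
    rw [add_comm, ← map_add, ← hLQg σ hσ, smul_bplus_def, thetaPlus_bplusGal]
  push Not at hcase
  have hu0 : ∀ v, theta p (shiftSys (hz v) (N + 1) 0 : AInf p) = 0 := fun v => by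
    rw [shiftSys, Nat.sub_zero, itA_congr (b := ⟨z v 0, (hz v).rad 0⟩)
      (congrArg (z v) (Nat.zero_sub (N + 1)))]
    exact hvan v (hcase v)
  obtain ⟨F, b, hFa, hFs, hFg, hF0, hb⟩ := exists_periods h hs hz hadd hne hgal hu0 hzQ hQgal
  exact row_point_of_form hFa hFs hFg hF0 b hb

end FA.KDR
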