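import Fermat.Agent.KummerDeRham.Deep
import Fermat.Agent.KummerDeRham.Criterion
import Fermat.Agent.KummerDeRham.Supersingular
import Fermat.Agent.KummerDeRham.Kummer

/-!
# Kummer classes at potentially supersingular reduction

A multiple of the point has a parameter divisible by `π` on the congruent good equation. A system
of its parts inside the kernel of reduction lifts to `A_inf` next to the systems of the torsion
and gives a row of the dual of the extension.
-/

set_option autoImplicit false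
set_option linter.unusedSectionVars false
set_option linter.style.haveILetI false

noncomputable section

open Ideal Matrix WeierstrassCurve FA.TateSen FA.BDR FA.BDRCoh FA.Sen FA.PadicHodge FA.Frob FA.EC
  FA.Local FA.RT.Tate FA.CurveDR FA.OrdDR FA.PotDR FA.SSDR FA.DRCoh FA.EDR
open scoped WeierstrassCurve.Affine Classical

namespace FA.KDR

attribute [local irreducible] fgAdd wSeries mulN

variable {p : ℕ} [hp : Fact p.Prime]

local notation "Cp" => ℂ_[p]
local notation "G" => PadicAlgCl p ≃ₐ[ℚ_[p]] PadicAlgCl p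
local notation "Qb" => AlgebraicClosure ℚ

/-- A system of parts of a point in the kernel of reduction which stays there. -/
theorem exists_e1_divSys {V₀ : WeierstrassCurve Qb} [V₀.IsElliptic]
    (hI : IntCoeff (padicPlace p).valuation V₀.toAffine)
    (hΔ : (padicPlace p).valuation V₀.Δ = 1) {x : V₀.toAffine.Point}
    (hx : E1 (padicPlace p).valuation V₀.toAffine x) :
    ∃ R : ℕ → V₀.toAffine.Point, R 0 = x ∧ (∀ n, p • R (n + 1) = R n) ∧
      ∀ n, E1 (padicPlace p).valuation V₀.toAffine (R n) := by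
  choose g hg hgE using fun y : V₀.toAffine.Point =>
    OpenImageAll.exists_div hp.out (FA.GalCoh.liesOverPrime_padicPlace p) hI hΔ y
  refine ⟨fun n => Nat.rec x (fun _ y => g y) n, rfl, fun n => hg _, fun n => ?_⟩
  induction n with
  | zero => exact hx
  | succ n ih => exact hgE _ ih

variable {W : WeierstrassCurve ℤ} [(ratCurve W).IsElliptic]

/-- **Potentially supersingular reduction.** -/
theorem periodMap_eq_zero_potSupersingular (hp' : PotSupersingular p W) {B : TateBasis p W}
    (hρ : IsDeRham (curveAtP B)) {Q : ℕ → Pts W} (hQ : IsLocalSys p Q) :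
    periodMap hρ (kummerClass B hQ) = 0 := by
  obtain ⟨-, P, hP⟩ := isDeRham_of_potSupersingular hp' B
  obtain ⟨D, VA, W₀, hmap, hΔA, hres, hs, hall⟩ := exists_congruent_model hp'
  haveI : (ratCurve W₀).IsElliptic := ratCurve_isElliptic_of_Δ (Δ_ne_zero_of_good hs.1)
  haveI : ((ratCurve W)⁄Qb).IsElliptic :=
    inferInstanceAs ((ratCurve W).map (algebraMap ℚ Qb)).IsElliptic
  set V₀ := VA.map (padicPlace p).subtype
  have hgood := isGoodEq_of_map hmap hΔA
  haveI : V₀.IsElliptic := hgood.isElliptic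
  set V := VA.map (toOC p)
  have hc : V₀.map (embC p) = V.map (ocC p) := by
    rw [WeierstrassCurve.map_map, WeierstrassCurve.map_map]
    rfl
  haveI : (V.map (ocC p)).IsElliptic := hc ▸ inferInstance
  obtain ⟨π, hπ⟩ := exists_isNear hs.Δ_ne_zero hres
  set eV := vcEquiv D hmap.symm
  set Ψ : Pts W →+ (V.map (ocC p)).toAffine.Point :=
    (mapHom (embC p) hc).comp eV.symm.toAddMonoidHom
  have hΨinj : Function.Injective Ψ :=
    (mapHom_injective (embC p) hc).comp eV.symm.injective
  have hex : ∀ v n, ∃ (t : OC p) (ht : t ∈ (span {(p : OC p)}).radical),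
      (t : Cp) = parV (eV.symm (B.φ n v)) ∧ Ψ (B.φ n v) = ptG V ht := fun v n =>
    exists_par hc (hall n _ (by rw [← map_nsmul, B.nsmul_phi, map_zero]))
  choose t ht hpar hΨ using hex
  have htc : ∀ v n, evI (fun _ : Unit => t v (n + 1)) (fun _ => ht v (n + 1)) (mulN V p) = t v n :=
    fun v n => ptG_inj V (evI_radical _ (constantCoeff_mulN _ _)) (ht v n) (by
      rw [ptG_mulN V (ht v (n + 1)) p, ← hΨ, ← hΨ, ← map_nsmul, B.compat])
  have hta : ∀ v v' n, evI ![t v n, t v' n] (evO_pair_radical (ht v n) (ht v' n)) (fgAdd V) =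
      t (v + v') n := fun v v' n =>
    ptG_inj V (evI_radical _ (constantCoeff_fgAdd _)) (ht _ n) (by
      rw [← ptG_add V (ht v n) (ht v' n), ← hΨ, ← hΨ, ← hΨ, ← map_add, ← map_add])
  set U := fixGal p (coeffSet D)
  have htg : ∀ σ ∈ U, ∀ v n,
      galO σ (t v n) = t (B.rep (localGaloisToGlobal p σ) *ᵥ v) n := fun σ hσ v n =>
    Subtype.ext (by
      rw [coe_galO, hpar, hpar, ← B.rep_spec]
      exact (parV_smul hmap.symm hσ _).symm)
  have ht0 : ∀ v, t v 0 = 0 := fun v => Subtype.ext (by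
    rw [hpar, B.phi_zero_level, map_zero]
    rfl)
  choose z hz using fun v => exists_nearSys hπ (ht v) (htc v)
  have hz0 : ∀ v, z v 0 ∈ nearI π := fun v => by
    have h1 := (hz v).2 0
    rwa [ht0, sub_zero] at h1
  have hadd : ∀ v v' n, z (v + v') n = FA.SSDR.addA W₀ ((hz v).1.rad n) ((hz v').1.rad n) :=
    fun v v' n => congrFun ((hz (v + v')).ext hπ (by
      have h1 := (hz v).add hπ (ht v) (ht v') (hz v')
      rw [show (fun n => evI ![t v n, t v' n] (evO_pair_radical (ht v n) (ht v' n)) (fgAdd V)) =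
        t (v + v') from funext (hta v v')] at h1
      exact h1)) n
  have hgal : ∀ σ ∈ U, ∀ v n,
      ainfGal σ (z v n) = z (B.rep (localGaloisToGlobal p σ) *ᵥ v) n := fun σ hσ v n =>
    congrFun (IsNearSys.ext hπ (t := t (B.rep (localGaloisToGlobal p σ) *ᵥ v)) (by
      have h1 := (hz v).gal hπ σ
      rw [show (fun n => galO σ (t v n)) = t (B.rep (localGaloisToGlobal p σ) *ᵥ v) from
        funext (htg σ hσ v)] at h1
      exact h1) (hz _)) n
  have hne : ∃ v, z v ≠ 0 := by
    by_contra hc'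
    push Not at hc'
    refine phi_single_ne_zero B 0 (hΨinj ?_)
    have h1 : t (Pi.single 0 1) 1 = 0 := eq_zero_of_mem_span hπ (ht _) (htc _) (fun n => by
      have h2 := (hz (Pi.single 0 1)).2 n
      rw [hc' (Pi.single 0 1), Pi.zero_apply, map_zero, zero_sub, neg_mem_iff] at h2
      exact h2) 1
    rw [hΨ, map_zero]
    calc ptG V (ht (Pi.single 0 1) 1) = ptG V (zero_mem _) := by congr 1
      _ = 0 := ptG_zero V
  -- a deep multiple of the point and its parts
  obtain ⟨N₁, hN₁, hE₁⟩ := exists_nsmul_e1 hgood.int hgood.disc (eV.symm (Q 0))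
  obtain ⟨t₁, ht₁, -, hΨ₁⟩ := exists_par hc hE₁
  obtain ⟨k, t₀, ht₀', ht₀m, hk⟩ := exists_pow_nsmul_mem hπ ht₁
  have hEk : E1 (padicPlace p).valuation V₀.toAffine (p ^ k • (N₁ • eV.symm (Q 0))) :=
    (e1Subgroup hgood.int).nsmul_mem hE₁ _
  obtain ⟨R, hR0, hRd, hRE⟩ := exists_e1_divSys hgood.int hgood.disc hEk
  set Q' : ℕ → Pts W := fun n => eV (R n)
  have hQ'0 : Q' 0 = (p ^ k * N₁) • Q 0 := by
    show eV (R 0) = _
    rw [hR0, ← map_nsmul, ← map_nsmul, eV.apply_symm_apply, mul_nsmul']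
  have hQ' : IsLocalSys p Q' := ⟨fun n => by
    show p • eV (R (n + 1)) = eV (R n)
    rw [← map_nsmul, hRd], fun τ => by rw [hQ'0, gal_smul_nsmul, hQ.fixed]⟩
  refine periodMap_eq_zero_of_nsmul hQ hQ'
    (mul_ne_zero (pow_ne_zero k hp.out.ne_zero) hN₁) hQ'0 ?_
  choose tQ htQ hparQ hΨQ' using fun n => exists_par hc (hRE n)
  have hΨR : ∀ n, Ψ (Q' n) = ptG V (htQ n) := fun n => by
    show mapHom (embC p) hc (eV.symm (eV (R n))) = _
    rw [eV.symm_apply_apply, hΨQ']
  have htQc : ∀ n, evI (fun _ : Unit => tQ (n + 1)) (fun _ => htQ (n + 1)) (mulN V p) = tQ n :=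
    fun n => ptG_inj V (evI_radical _ (constantCoeff_mulN _ _)) (htQ n) (by
      rw [ptG_mulN V (htQ (n + 1)) p, ← hΨR, ← hΨR, ← map_nsmul, hQ'.div])
  have htQ0 : tQ 0 ∈ span {π} := by
    rwa [ptG_inj V (htQ 0) ht₀' (by
      rw [← hk, ← hΨ₁, ← hΨQ', hR0, map_nsmul])]
  obtain ⟨zQ, hzQ⟩ := exists_nearSys hπ htQ htQc
  have hzQ0 : zQ 0 ∈ nearI π := by
    show theta p (zQ 0) ∈ span {π}
    simpa using add_mem (hzQ.2 0) htQ0
  set c : G → Fin 2 → ℤ_[p] := fun σ => kummerVec B Q' (localGaloisToGlobal p σ)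
  have hQgal : ∀ σ ∈ U, ∀ n, ainfGal σ (zQ n) =
      FA.SSDR.addA W₀ (hzQ.1.rad n) ((hz (c σ)).1.rad n) := fun σ hσ n => by
    have he : (fun n => galO σ (tQ n)) = fun n =>
        evI ![tQ n, t (c σ) n] (evO_pair_radical (htQ n) (ht (c σ) n)) (fgAdd V) := by
      funext n
      have hσn : localGaloisToGlobal p σ • Q' n = Q' n + B.φ n (c σ) :=
        eq_add_of_sub_eq' (kummerVec_spec hQ'.div (hQ'.fixed σ) n).symm
      have hE : E1 (padicPlace p).valuation V₀.toAffine
          (eV.symm (localGaloisToGlobal p σ • Q' n)) := by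
        rw [hσn, map_add]
        refine e1_add hgood.int ?_ (hall n _ (by rw [← map_nsmul, B.nsmul_phi, map_zero]))
        show E1 _ _ (eV.symm (eV (R n)))
        rw [eV.symm_apply_apply]
        exact hRE n
      obtain ⟨t', ht', hpar', hΨt'⟩ := exists_par hc hE
      have h1 : galO σ (tQ n) = t' := Subtype.ext (by
        rw [coe_galO, hpar', hparQ, parV_smul hmap.symm hσ]
        show _ = gal σ (parV (eV.symm (eV (R n))))
        rw [eV.symm_apply_apply])
      rw [h1]
      refine ptG_inj V ht' (evI_radical _ (constantCoeff_fgAdd _)) ?_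
      rw [← ptG_add V (htQ n) (ht (c σ) n), ← hΨt', ← hΨR, ← hΨ, ← map_add Ψ, ← hσn]
      rfl
    have h1 := hzQ.gal hπ σ
    rw [he] at h1
    exact congrFun (h1.ext hπ (hzQ.add hπ htQ (ht (c σ)) (hz (c σ)))) n
  obtain ⟨l, b, ⟨j, hj⟩, hrow⟩ := exists_row_point hπ hs (fun v => (hz v).1) hz0 hadd hne
    (U := U) (R := fun σ => B.rep (localGaloisToGlobal p σ)) hgal hzQ.1 hzQ0 hQgal
  refine periodMap_eq_zero_of_row (isQpRep_curveAtP B) hρ hP (det_curveAtP B) _
    (isOpen_fixGal (S := coeffSet D) (by simp)) (e := Sum.elim l fun _ => b)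
    (fun σ hσ => isFixedRow_ext.2 ⟨funext fun k => ?_, ?_⟩) (j := j) hj
  · simp only [Sum.elim_inl]
    rw [(hrow σ hσ).1 k]
    simp [Matrix.vecMul, dotProduct, Fin.sum_univ_two, curveAtP]
  · simp only [Sum.elim_inl, Sum.elim_inr]
    rw [(hrow σ hσ).2, Fin.sum_univ_two]
    rfl

end FA.KDR
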