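import Fermat.Agent.KummerDeRham.LineCases
import Fermat.Agent.KummerDeRham.PotSupersingular

/-!
# Kummer classes give de Rham extensions

The class of every point of an elliptic curve over `ℚ` fixed by the decomposition group at `p`
lies in the kernel of the period map.
-/

set_option autoImplicit false
set_option linter.unusedSectionVars false

noncomputable section

open WeierstrassCurve FA.TateSen FA.BDR FA.Sen FA.PadicHodge FA.CurveDR FA.RT.Tate FA.Frob
  FA.DRCoh
open scoped Classical

namespace FA.KDR

variable {p : ℕ} [hp : Fact p.Prime] {W : WeierstrassCurve ℤ} [(ratCurve W).IsElliptic]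

/-- **Kummer classes lie in the kernel of the period map**, for every curve and every prime. -/
theorem periodMap_kummerClass_eq_zero {B : TateBasis p W} (hρ : IsDeRham (curveAtP B))
    {Q : ℕ → Pts W} (hQ : IsLocalSys p Q) : periodMap hρ (kummerClass B hQ) = 0 := by
  rcases lt_or_ge (padicValRat p (ratCurve W).j) 0 with hj | hj
  · exact periodMap_eq_zero_pole hj hρ hQ
  · by_cases hs : FA.PotDR.PotSupersingular p W
    · exact periodMap_eq_zero_potSupersingular hs hρ hQ
    · exact periodMap_eq_zero_potOrdinary
        ((FA.PotDR.potOrdinary_or_supersingular hj).2 hs) hρ hQ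

/-- **The extension given by a point is de Rham.** -/
theorem isDeRham_extRep_kummer (B : TateBasis p W) {Q : ℕ → Pts W} (hQ : IsLocalSys p Q) :
    IsDeRham (extRep (curveAtP B) (kummerClass B hQ)) :=
  (isDeRham_extRep_iff (FA.EDR.isDeRham_curveAtP_any B).1 _).2
    (periodMap_kummerClass_eq_zero _ hQ)

variable (p) in
/-- A rational point has a system of parts. -/
theorem exists_localSys_up (R : (ratCurve W).toAffine.Point) :
    ∃ Q : ℕ → Pts W, IsLocalSys p Q ∧ Q 0 = FA.PointDiv.up W R := by
  obtain ⟨Q, hQ, hQ0⟩ := exists_divSys p (FA.PointDiv.up W R)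
  exact ⟨Q, ⟨hQ, fun τ => by rw [hQ0]; exact FA.PointDiv.smul_up W _ R⟩, hQ0⟩

/-- **Every rational point gives a de Rham extension at every prime.** -/
theorem exists_isDeRham_extRep_of_point (B : TateBasis p W) (R : (ratCurve W).toAffine.Point) :
    ∃ (Q : ℕ → Pts W) (hQ : IsLocalSys p Q), Q 0 = FA.PointDiv.up W R ∧
      IsDeRham (extRep (curveAtP B) (kummerClass B hQ)) := by
  obtain ⟨Q, hQ, hQ0⟩ := exists_localSys_up p R
  exact ⟨Q, hQ, hQ0, isDeRham_extRep_kummer B hQ⟩

end FA.KDR
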